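import Fermat.Agent.Lib.SmoothZeta.ClassSum
import Fermat.Agent.Lib.IdealEulerNF

/-!
# Partial zeta functions of two ideal classes differ by a bounded function on `(1, 2]`

The smoothed class sums `Ssum J s T = ∑_{I ∈ c} G s (N I * N J / T ^ n)` are, by the unfolding
(`tsum_lattice_W_eq`) and the Lipschitz lattice sum (`abs_latticeSum_sub_le_pow`), equal to
`(T ^ n / N J) * κ_s + O (T ^ n / T)` with `κ_s` INDEPENDENT of the class.  Summing over the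
dyadic scales `T ^ n = 2 ^ k * N J` gives `ζ_c (s) - ζ_c' (s) = O(1)` on `(1, 2]`.
-/

namespace Fermat.Agent.Lib.SmoothZeta

open NumberField NumberField.InfinitePlace NumberField.Units NumberField.mixedEmbedding Module
  MeasureTheory Ideal
open scoped ENNReal nonZeroDivisors Classical

variable {K : Type*} [Field K] [NumberField K]

/-- The smoothed class sum at scale `T`. -/
noncomputable def Ssum (J : (Ideal (𝓞 K))⁰) (s T : ℝ) : ℝ :=
  ∑' I : {I : (Ideal (𝓞 K))⁰ // ClassGroup.mk0 I = (ClassGroup.mk0 J)⁻¹},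
    G s (((absNorm (I : Ideal (𝓞 K)) * absNorm (J : Ideal (𝓞 K)) : ℕ) : ℝ) / T ^ finrank ℚ K)

/-- The lattice sum of the weight at scale `T`. -/
noncomputable def Lsum (J : (Ideal (𝓞 K))⁰) (s T : ℝ) : ℝ :=
  ∑' g : (Submodule.span ℤ (Set.range
    (fractionalIdealLatticeBasis K (FractionalIdeal.mk0 K J)))).toAddSubgroup,
      W K s (T⁻¹ • (g : mixedSpace K))

theorem Lsum_eq (J : (Ideal (𝓞 K))⁰) (s : ℝ) {T : ℝ} (hT : 0 < T) :
    Lsum J s T = torsionOrder K * Ssum J s T := by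
  unfold Lsum Ssum
  have h1 : ∀ g : (Submodule.span ℤ (Set.range
      (fractionalIdealLatticeBasis K (FractionalIdeal.mk0 K J)))).toAddSubgroup,
      W K s (T⁻¹ • (g : mixedSpace K)) =
        (ENNReal.ofReal (W K s (T⁻¹ • (g : mixedSpace K)))).toReal :=
    fun g => (ENNReal.toReal_ofReal (W_nonneg K s _)).symm
  rw [tsum_congr h1, ← ENNReal.tsum_toReal_eq (fun g => ENNReal.ofReal_ne_top),
    tsum_lattice_W_eq J s hT, ENNReal.toReal_mul, ENNReal.toReal_natCast,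
    ENNReal.tsum_toReal_eq (fun I => ENNReal.ofReal_ne_top)]
  congr 1
  exact tsum_congr fun I => ENNReal.toReal_ofReal (G_nonneg _ _)

variable (K) in
/-- The covolume of the lattice of integers. -/
noncomputable def V0 : ℝ :=
  (volume : Measure (mixedSpace K)).real (ZSpan.fundamentalDomain (latticeBasis K))

variable (K) in
theorem V0_pos : 0 < V0 K := by
  unfold V0
  rw [measureReal_def]
  exact ENNReal.toReal_pos (ZSpan.measure_fundamentalDomain_ne_zero _)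
    (ZSpan.fundamentalDomain_isBounded _).measure_lt_top.ne

theorem volume_real_fundamentalDomain (J : (Ideal (𝓞 K))⁰) :
    (volume : Measure (mixedSpace K)).real (ZSpan.fundamentalDomain
      (fractionalIdealLatticeBasis K (FractionalIdeal.mk0 K J)))
      = absNorm (J : Ideal (𝓞 K)) * V0 K := by
  rw [measureReal_def, volume_fundamentalDomain_fractionalIdealLatticeBasis, ENNReal.toReal_mul,
    ENNReal.toReal_ofReal (Rat.cast_nonneg.mpr (FractionalIdeal.absNorm_nonneg _)),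
    FractionalIdeal.coe_mk0,
    FractionalIdeal.coeIdeal_absNorm, Rat.cast_natCast]
  rfl

/-- **Smoothed class count with power-saving error term**; the main term does not depend on
the class. -/
theorem exists_Ssum_bound (J : (Ideal (𝓞 K))⁰) : ∃ C : ℝ, 0 ≤ C ∧
    ∀ s : ℝ, 0 ≤ s → s ≤ 2 → ∀ T : ℝ, 1 ≤ T →
      |Ssum J s T - T ^ finrank ℚ K / absNorm (J : Ideal (𝓞 K)) *
          ((∫ x, W K s x) / (torsionOrder K * V0 K))| ≤ C * (T ^ finrank ℚ K / T) := by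
  obtain ⟨Λ, hΛ, hLip⟩ := exists_W_lipschitz K
  set b := fractionalIdealLatticeBasis K (FractionalIdeal.mk0 K J) with hb
  set d := ∑ i, ‖b i‖ with hd
  have hd0 : 0 ≤ d := Finset.sum_nonneg fun i _ => norm_nonneg _
  set C0 := Λ * d * (Real.exp (AK K) + 2 * d) ^ finrank ℝ (mixedSpace K) *
    (volume : Measure (mixedSpace K)).real (Metric.closedBall (0 : mixedSpace K) 1) with hC0def
  have hC0 : 0 ≤ C0 := by
    have := (Real.exp_pos (AK K)).le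
    positivity
  have hNJ : (0 : ℝ) < absNorm (J : Ideal (𝓞 K)) :=
    Nat.cast_pos.mpr (absNorm_pos_of_nonZeroDivisors J)
  have hw : (0 : ℝ) < torsionOrder K := Nat.cast_pos.mpr (torsionOrder_pos K)
  have hV := V0_pos K
  refine ⟨C0 / (torsionOrder K * (absNorm (J : Ideal (𝓞 K)) * V0 K)), by positivity,
    fun s hs0 hs2 T hT => ?_⟩
  have hT0 : 0 < T := lt_of_lt_of_le one_pos hT
  have h := abs_latticeSum_sub_le_pow b volume (W K s) hΛ (Real.exp_pos (AK K)).le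
    (hLip s hs0 hs2) (fun x hx => W_eq_zero_of_lt_norm hx) hT
  rw [← hd, ← hC0def] at h
  have hL : (∑' g : (Submodule.span ℤ (Set.range b)).toAddSubgroup,
      W K s (T⁻¹ • (g : mixedSpace K))) = Lsum J s T := rfl
  rw [hL, volume_real_fundamentalDomain, Lsum_eq J s hT0, mixedEmbedding.finrank] at h
  have hpos : 0 < (torsionOrder K : ℝ) * (absNorm (J : Ideal (𝓞 K)) * V0 K) := by positivity
  have key : Ssum J s T - T ^ finrank ℚ K / absNorm (J : Ideal (𝓞 K)) *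
        ((∫ x, W K s x) / (torsionOrder K * V0 K))
      = (torsionOrder K * Ssum J s T * (absNorm (J : Ideal (𝓞 K)) * V0 K) -
          T ^ finrank ℚ K * ∫ x, W K s x) /
        ((torsionOrder K : ℝ) * (absNorm (J : Ideal (𝓞 K)) * V0 K)) := by
    field_simp
  rw [key, abs_div, abs_of_pos hpos, div_le_iff₀ hpos]
  calc |torsionOrder K * Ssum J s T * (absNorm (J : Ideal (𝓞 K)) * V0 K) -
        T ^ finrank ℚ K * ∫ x, W K s x|
      ≤ C0 * (T ^ finrank ℚ K / T) := h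
    _ = C0 / (torsionOrder K * (absNorm (J : Ideal (𝓞 K)) * V0 K)) * (T ^ finrank ℚ K / T) *
          (torsionOrder K * (absNorm (J : Ideal (𝓞 K)) * V0 K)) := by
        field_simp

/-! ### Dyadic scales -/

variable (K) in
/-- The ratio `2 ^ (1 / n)` of consecutive scales. -/
noncomputable def rr : ℝ := (2 : ℝ) ^ ((finrank ℚ K : ℝ)⁻¹)

variable (K) in
theorem rr_pow : rr K ^ finrank ℚ K = 2 :=
  Real.rpow_inv_natCast_pow (by norm_num) finrank_pos.ne'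

variable (K) in
theorem one_lt_rr : 1 < rr K :=
  Real.one_lt_rpow (by norm_num) (inv_pos.mpr (Nat.cast_pos.mpr finrank_pos))

/-- The `k`-th scale for the ideal `J`: `TT J k ^ n = 2 ^ k * N J`. -/
noncomputable def TT (J : (Ideal (𝓞 K))⁰) (k : ℕ) : ℝ :=
  rr K ^ k * (absNorm (J : Ideal (𝓞 K)) : ℝ) ^ ((finrank ℚ K : ℝ)⁻¹)

theorem TT_pow (J : (Ideal (𝓞 K))⁰) (k : ℕ) :
    TT J k ^ finrank ℚ K = 2 ^ k * (absNorm (J : Ideal (𝓞 K)) : ℝ) := by
  rw [TT, mul_pow, ← pow_mul, mul_comm k, pow_mul, rr_pow,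
    Real.rpow_inv_natCast_pow (Nat.cast_nonneg _) finrank_pos.ne']

theorem rr_pow_le_TT (J : (Ideal (𝓞 K))⁰) (k : ℕ) : rr K ^ k ≤ TT J k := by
  have h1 : (1 : ℝ) ≤ absNorm (J : Ideal (𝓞 K)) := by
    exact_mod_cast absNorm_pos_of_nonZeroDivisors J
  have h2 : (1 : ℝ) ≤ (absNorm (J : Ideal (𝓞 K)) : ℝ) ^ ((finrank ℚ K : ℝ)⁻¹) :=
    Real.one_le_rpow h1 (inv_nonneg.mpr (Nat.cast_nonneg _))
  exact le_mul_of_one_le_right (pow_nonneg (zero_le_one.trans (one_lt_rr K).le) _) h2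

theorem one_le_TT (J : (Ideal (𝓞 K))⁰) (k : ℕ) : 1 ≤ TT J k :=
  (one_le_pow₀ (one_lt_rr K).le).trans (rr_pow_le_TT J k)

theorem arg_TT (J : (Ideal (𝓞 K))⁰) (k : ℕ) (m : ℕ) :
    ((m * absNorm (J : Ideal (𝓞 K)) : ℕ) : ℝ) / TT J k ^ finrank ℚ K = (m : ℝ) / 2 ^ k := by
  have hNJ : (absNorm (J : Ideal (𝓞 K)) : ℝ) ≠ 0 :=
    Nat.cast_ne_zero.mpr (absNorm_ne_zero_of_nonZeroDivisors J)
  rw [TT_pow, Nat.cast_mul]
  field_simp

theorem Ssum_TT (J : (Ideal (𝓞 K))⁰) (s : ℝ) (k : ℕ) :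
    Ssum J s (TT J k) =
      ∑' I : {I : (Ideal (𝓞 K))⁰ // ClassGroup.mk0 I = (ClassGroup.mk0 J)⁻¹},
        G s ((absNorm (I : Ideal (𝓞 K)) : ℝ) / 2 ^ k) := by
  unfold Ssum
  exact tsum_congr fun I => by rw [arg_TT]

/-- The smoothed class sums are finite. -/
theorem tsum_G_lt_top (J : (Ideal (𝓞 K))⁰) (s : ℝ) (k : ℕ) :
    ∑' I : {I : (Ideal (𝓞 K))⁰ // ClassGroup.mk0 I = (ClassGroup.mk0 J)⁻¹},
      ENNReal.ofReal (G s ((absNorm (I : Ideal (𝓞 K)) : ℝ) / 2 ^ k)) < ⊤ := by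
  have hT : 0 < TT J k := lt_of_lt_of_le one_pos (one_le_TT J k)
  have h := tsum_lattice_W_lt_top J s hT
  rw [tsum_lattice_W_eq J s hT] at h
  simp_rw [arg_TT] at h
  rcases ENNReal.mul_lt_top_iff.mp h with h1 | h1 | h1
  · exact h1.2
  · exact absurd h1 (Nat.cast_ne_zero.mpr (torsionOrder_ne_zero K))
  · rw [h1]; exact ENNReal.zero_lt_top

theorem ofReal_Ssum_TT (J : (Ideal (𝓞 K))⁰) (s : ℝ) (k : ℕ) :
    ENNReal.ofReal (Ssum J s (TT J k)) =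
      ∑' I : {I : (Ideal (𝓞 K))⁰ // ClassGroup.mk0 I = (ClassGroup.mk0 J)⁻¹},
        ENNReal.ofReal (G s ((absNorm (I : Ideal (𝓞 K)) : ℝ) / 2 ^ k)) := by
  have h1 : ∀ I : {I : (Ideal (𝓞 K))⁰ // ClassGroup.mk0 I = (ClassGroup.mk0 J)⁻¹},
      G s ((absNorm (I : Ideal (𝓞 K)) : ℝ) / 2 ^ k) =
        (ENNReal.ofReal (G s ((absNorm (I : Ideal (𝓞 K)) : ℝ) / 2 ^ k))).toReal :=
    fun I => (ENNReal.toReal_ofReal (G_nonneg _ _)).symm
  rw [Ssum_TT, tsum_congr h1, ← ENNReal.tsum_toReal_eq (fun I => ENNReal.ofReal_ne_top),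
    ENNReal.ofReal_toReal (tsum_G_lt_top J s k).ne]

theorem Ssum_nonneg (J : (Ideal (𝓞 K))⁰) (s T : ℝ) : 0 ≤ Ssum J s T :=
  tsum_nonneg fun _ => G_nonneg _ _

/-! ### The dyadic decomposition of `N ^ (-s)` -/

theorem tsum_nat_ofReal_hat {t : ℝ} (ht : 0 ≤ t) :
    ∑' k : ℕ, ENNReal.ofReal (hat (t - (k : ℝ))) = 1 := by
  have h1 := tsum_nat_hat_eq_one ht
  have hs : Summable fun k : ℕ => hat (t - (k : ℝ)) := by
    by_contra h
    rw [tsum_eq_zero_of_not_summable h] at h1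
    exact zero_ne_one h1
  rw [← ENNReal.ofReal_tsum_of_nonneg (fun k => hat_nonneg _) hs, h1, ENNReal.ofReal_one]

theorem dyadic_rpow (s : ℝ) {N : ℕ} (hN : 1 ≤ N) :
    ∑' k : ℕ, ENNReal.ofReal (((2 : ℝ) ^ k) ^ (-s) * G s ((N : ℝ) / 2 ^ k)) =
      ENNReal.ofReal ((N : ℝ) ^ (-s)) := by
  have hN0 : (0 : ℝ) < N := by exact_mod_cast hN
  have hl : 0 < Real.log 2 := Real.log_pos (by norm_num)
  have hterm : ∀ k : ℕ, ((2 : ℝ) ^ k) ^ (-s) * G s ((N : ℝ) / 2 ^ k) =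
      (N : ℝ) ^ (-s) * hat (Real.log N / Real.log 2 - (k : ℝ)) := by
    intro k
    have h2 : (0 : ℝ) < 2 ^ k := by positivity
    rw [G_eq_rpow s (div_pos hN0 h2), Real.log_div hN0.ne' h2.ne', Real.log_pow]
    have e1 : (Real.log N - k * Real.log 2) / Real.log 2 = Real.log N / Real.log 2 - k := by
      field_simp
    rw [e1, mul_left_comm, ← Real.mul_rpow h2.le (div_pos hN0 h2).le, mul_div_cancel₀ _ h2.ne',
      mul_comm]
  simp_rw [hterm, ENNReal.ofReal_mul (Real.rpow_nonneg hN0.le _), ENNReal.tsum_mul_left]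
  rw [tsum_nat_ofReal_hat (div_nonneg (Real.log_natCast_nonneg N) hl.le), mul_one]

/-- The partial zeta function as a sum of smoothed class sums over the dyadic scales
(identity in `ℝ≥0∞`). -/
theorem tsum_ofReal_dyadic (J : (Ideal (𝓞 K))⁰) (s : ℝ) :
    ∑' k : ℕ, ENNReal.ofReal (((2 : ℝ) ^ k) ^ (-s) * Ssum J s (TT J k)) =
      ∑' I : {I : (Ideal (𝓞 K))⁰ // ClassGroup.mk0 I = (ClassGroup.mk0 J)⁻¹},
        ENNReal.ofReal ((absNorm (I.1 : Ideal (𝓞 K)) : ℝ) ^ (-s)) := by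
  have h1 : ∀ I : {I : (Ideal (𝓞 K))⁰ // ClassGroup.mk0 I = (ClassGroup.mk0 J)⁻¹},
      ENNReal.ofReal ((absNorm (I.1 : Ideal (𝓞 K)) : ℝ) ^ (-s)) =
        ∑' k : ℕ, ENNReal.ofReal (((2 : ℝ) ^ k) ^ (-s) *
          G s ((absNorm (I.1 : Ideal (𝓞 K)) : ℝ) / 2 ^ k)) :=
    fun I => (dyadic_rpow s (absNorm_pos_of_nonZeroDivisors I.1)).symm
  rw [tsum_congr h1, ENNReal.tsum_comm]
  refine tsum_congr fun k => ?_
  have h2 : (0 : ℝ) ≤ ((2 : ℝ) ^ k) ^ (-s) := Real.rpow_nonneg (by positivity) _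
  rw [ENNReal.ofReal_mul h2, ofReal_Ssum_TT, ← ENNReal.tsum_mul_left]
  exact tsum_congr fun I => (ENNReal.ofReal_mul h2).symm

theorem tsum_dyadic (J : (Ideal (𝓞 K))⁰) (s : ℝ) :
    ∑' k : ℕ, ((2 : ℝ) ^ k) ^ (-s) * Ssum J s (TT J k) =
      ∑' I : {I : (Ideal (𝓞 K))⁰ // ClassGroup.mk0 I = (ClassGroup.mk0 J)⁻¹},
        (absNorm (I.1 : Ideal (𝓞 K)) : ℝ) ^ (-s) := by
  have hnn : ∀ k : ℕ, 0 ≤ ((2 : ℝ) ^ k) ^ (-s) * Ssum J s (TT J k) := fun k =>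
    mul_nonneg (Real.rpow_nonneg (by positivity) _) (Ssum_nonneg _ _ _)
  have h1 : ∀ k : ℕ, ((2 : ℝ) ^ k) ^ (-s) * Ssum J s (TT J k) =
      (ENNReal.ofReal (((2 : ℝ) ^ k) ^ (-s) * Ssum J s (TT J k))).toReal :=
    fun k => (ENNReal.toReal_ofReal (hnn k)).symm
  have h2 : ∀ I : {I : (Ideal (𝓞 K))⁰ // ClassGroup.mk0 I = (ClassGroup.mk0 J)⁻¹},
      (absNorm (I.1 : Ideal (𝓞 K)) : ℝ) ^ (-s) =
        (ENNReal.ofReal ((absNorm (I.1 : Ideal (𝓞 K)) : ℝ) ^ (-s))).toReal :=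
    fun I => (ENNReal.toReal_ofReal (Real.rpow_nonneg (Nat.cast_nonneg _) _)).symm
  rw [tsum_congr h1, tsum_congr h2, ← ENNReal.tsum_toReal_eq (fun k => ENNReal.ofReal_ne_top),
    ← ENNReal.tsum_toReal_eq (fun I => ENNReal.ofReal_ne_top), tsum_ofReal_dyadic]

theorem summable_dyadic (J : (Ideal (𝓞 K))⁰) {s : ℝ} (hs : 1 < s) :
    Summable fun k : ℕ => ((2 : ℝ) ^ k) ^ (-s) * Ssum J s (TT J k) := by
  have hnn : ∀ k : ℕ, 0 ≤ ((2 : ℝ) ^ k) ^ (-s) * Ssum J s (TT J k) := fun k =>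
    mul_nonneg (Real.rpow_nonneg (by positivity) _) (Ssum_nonneg _ _ _)
  have hsum := Fermat.Agent.Lib.IdealEulerNF.summable_absNorm_rpow_class K
    (ClassGroup.mk0 J)⁻¹ hs
  have hfin : ∑' k : ℕ, ENNReal.ofReal (((2 : ℝ) ^ k) ^ (-s) * Ssum J s (TT J k)) ≠ ⊤ := by
    rw [tsum_ofReal_dyadic, ← ENNReal.ofReal_tsum_of_nonneg
      (fun I => Real.rpow_nonneg (Nat.cast_nonneg _) _) hsum]
    exact ENNReal.ofReal_ne_top
  have := ENNReal.summable_toReal hfin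
  refine this.congr fun k => ?_
  exact ENNReal.toReal_ofReal (hnn k)

/-! ### The main theorem -/

/-- For ideals `J`, `J'` the partial zeta functions of the classes inverse to those of `J`,
`J'` differ by a bounded function on `(1, 2]`. -/
theorem exists_bound_sub_of_ideals (J J' : (Ideal (𝓞 K))⁰) : ∃ B : ℝ, ∀ s : ℝ, 1 < s → s ≤ 2 →
    |∑' I : {I : (Ideal (𝓞 K))⁰ // ClassGroup.mk0 I = (ClassGroup.mk0 J)⁻¹},
        (absNorm (I.1 : Ideal (𝓞 K)) : ℝ) ^ (-s) -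
      ∑' I : {I : (Ideal (𝓞 K))⁰ // ClassGroup.mk0 I = (ClassGroup.mk0 J')⁻¹},
        (absNorm (I.1 : Ideal (𝓞 K)) : ℝ) ^ (-s)| ≤ B := by
  obtain ⟨C, hC, hCb⟩ := exists_Ssum_bound J
  obtain ⟨C', hC', hCb'⟩ := exists_Ssum_bound J'
  have hr1 := one_lt_rr K
  have hr0 : 0 < rr K := zero_lt_one.trans hr1
  have hNJ : (0 : ℝ) < absNorm (J : Ideal (𝓞 K)) :=
    Nat.cast_pos.mpr (absNorm_pos_of_nonZeroDivisors J)
  have hNJ' : (0 : ℝ) < absNorm (J' : Ideal (𝓞 K)) :=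
    Nat.cast_pos.mpr (absNorm_pos_of_nonZeroDivisors J')
  set D := C * absNorm (J : Ideal (𝓞 K)) + C' * absNorm (J' : Ideal (𝓞 K)) with hD
  have hD0 : 0 ≤ D := by positivity
  refine ⟨D * (1 - (rr K)⁻¹)⁻¹, fun s hs1 hs2 => ?_⟩
  have hs0 : 0 ≤ s := by linarith
  rw [← tsum_dyadic J s, ← tsum_dyadic J' s,
    ← (summable_dyadic J hs1).tsum_sub (summable_dyadic J' hs1), ← Real.norm_eq_abs]
  have hgeom : HasSum (fun k : ℕ => D * ((rr K)⁻¹) ^ k) (D * (1 - (rr K)⁻¹)⁻¹) :=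
    (hasSum_geometric_of_lt_one (inv_nonneg.mpr hr0.le) (inv_lt_one_of_one_lt₀ hr1)).mul_left D
  refine tsum_of_norm_bounded hgeom fun k => ?_
  -- the termwise estimate
  have h2k : (0 : ℝ) < 2 ^ k := by positivity
  have ha0 : 0 ≤ ((2 : ℝ) ^ k) ^ (-s) := Real.rpow_nonneg h2k.le _
  have ha1 : ((2 : ℝ) ^ k) ^ (-s) * 2 ^ k ≤ 1 := by
    have h1 : ((2 : ℝ) ^ k) ^ (-s) * 2 ^ k = ((2 : ℝ) ^ k) ^ (1 - s) := by
      rw [sub_eq_add_neg, add_comm, Real.rpow_add h2k, Real.rpow_one]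
    rw [h1]
    exact Real.rpow_le_one_of_one_le_of_nonpos (one_le_pow₀ (by norm_num)) (by linarith)
  -- bounds at the scale `k` for both ideals
  have hJ := hCb s hs0 hs2 (TT J k) (one_le_TT J k)
  have hJ' := hCb' s hs0 hs2 (TT J' k) (one_le_TT J' k)
  rw [TT_pow, mul_div_assoc, div_self hNJ.ne', mul_one] at hJ
  rw [TT_pow, mul_div_assoc, div_self hNJ'.ne', mul_one] at hJ'
  have hT : 0 < TT J k := lt_of_lt_of_le one_pos (one_le_TT J k)
  have hT' : 0 < TT J' k := lt_of_lt_of_le one_pos (one_le_TT J' k)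
  have hrk : 0 < rr K ^ k := pow_pos hr0 k
  have hb1 : C * (2 ^ k * (absNorm (J : Ideal (𝓞 K)) : ℝ) / TT J k) ≤
      C * absNorm (J : Ideal (𝓞 K)) * (2 ^ k / rr K ^ k) := by
    have : 2 ^ k * (absNorm (J : Ideal (𝓞 K)) : ℝ) / TT J k ≤
        2 ^ k * (absNorm (J : Ideal (𝓞 K)) : ℝ) / rr K ^ k :=
      div_le_div_of_nonneg_left (by positivity) hrk (rr_pow_le_TT J k)
    calc C * (2 ^ k * (absNorm (J : Ideal (𝓞 K)) : ℝ) / TT J k)
        ≤ C * (2 ^ k * (absNorm (J : Ideal (𝓞 K)) : ℝ) / rr K ^ k) :=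
          mul_le_mul_of_nonneg_left this hC
      _ = C * absNorm (J : Ideal (𝓞 K)) * (2 ^ k / rr K ^ k) := by ring
  have hb1' : C' * (2 ^ k * (absNorm (J' : Ideal (𝓞 K)) : ℝ) / TT J' k) ≤
      C' * absNorm (J' : Ideal (𝓞 K)) * (2 ^ k / rr K ^ k) := by
    have : 2 ^ k * (absNorm (J' : Ideal (𝓞 K)) : ℝ) / TT J' k ≤
        2 ^ k * (absNorm (J' : Ideal (𝓞 K)) : ℝ) / rr K ^ k :=
      div_le_div_of_nonneg_left (by positivity) hrk (rr_pow_le_TT J' k)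
    calc C' * (2 ^ k * (absNorm (J' : Ideal (𝓞 K)) : ℝ) / TT J' k)
        ≤ C' * (2 ^ k * (absNorm (J' : Ideal (𝓞 K)) : ℝ) / rr K ^ k) :=
          mul_le_mul_of_nonneg_left this hC'
      _ = C' * absNorm (J' : Ideal (𝓞 K)) * (2 ^ k / rr K ^ k) := by ring
  have hdiff : |Ssum J s (TT J k) - Ssum J' s (TT J' k)| ≤ D * (2 ^ k / rr K ^ k) := by
    have e : Ssum J s (TT J k) - Ssum J' s (TT J' k) =
        (Ssum J s (TT J k) - 2 ^ k * ((∫ x, W K s x) / (torsionOrder K * V0 K))) -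
        (Ssum J' s (TT J' k) - 2 ^ k * ((∫ x, W K s x) / (torsionOrder K * V0 K))) := by ring
    rw [e]
    refine (abs_sub _ _).trans ?_
    rw [hD, add_mul]
    exact add_le_add (hJ.trans hb1) (hJ'.trans hb1')
  rw [Real.norm_eq_abs, ← mul_sub, abs_mul, abs_of_nonneg ha0]
  calc ((2 : ℝ) ^ k) ^ (-s) * |Ssum J s (TT J k) - Ssum J' s (TT J' k)|
      ≤ ((2 : ℝ) ^ k) ^ (-s) * (D * (2 ^ k / rr K ^ k)) := mul_le_mul_of_nonneg_left hdiff ha0
    _ = D * (((2 : ℝ) ^ k) ^ (-s) * 2 ^ k) * ((rr K)⁻¹) ^ k := by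
        rw [inv_pow]; ring
    _ ≤ D * 1 * ((rr K)⁻¹) ^ k := by
        refine mul_le_mul_of_nonneg_right (mul_le_mul_of_nonneg_left ha1 hD0) ?_
        exact pow_nonneg (inv_nonneg.mpr hr0.le) _
    _ = D * ((rr K)⁻¹) ^ k := by ring

/-- **The partial zeta functions of two ideal classes differ by a bounded function on
`(1, 2]`.** -/
theorem exists_bound_classZeta_sub (K : Type*) [Field K] [NumberField K]
    (c c' : ClassGroup (𝓞 K)) : ∃ B : ℝ, ∀ s : ℝ, 1 < s → s ≤ 2 →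
    |∑' I : {I : (Ideal (𝓞 K))⁰ // ClassGroup.mk0 I = c},
        (absNorm (I.1 : Ideal (𝓞 K)) : ℝ) ^ (-s) -
      ∑' I : {I : (Ideal (𝓞 K))⁰ // ClassGroup.mk0 I = c'},
        (absNorm (I.1 : Ideal (𝓞 K)) : ℝ) ^ (-s)| ≤ B := by
  obtain ⟨J, hJ⟩ := ClassGroup.mk0_surjective c⁻¹
  obtain ⟨J', hJ'⟩ := ClassGroup.mk0_surjective c'⁻¹
  have e : c = (ClassGroup.mk0 J)⁻¹ := by rw [hJ, inv_inv]
  have e' : c' = (ClassGroup.mk0 J')⁻¹ := by rw [hJ', inv_inv]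
  subst e e'
  exact exists_bound_sub_of_ideals J J'

end Fermat.Agent.Lib.SmoothZeta
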