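import Mathlib

/-!
# Lattice sums of Lipschitz functions with compact support

For a `ℤ`-lattice `L = span ℤ (range b)` in a finite dimensional real normed space `E`
and a Lipschitz function `W : E → ℝ` vanishing outside a ball, the Riemann sum
`∑_{g ∈ L} W (g / T)` differs from `T ^ dim E * ∫ W / covol L` by `O (T ^ (dim E - 1))`,
with a completely explicit constant.  No regularity of any boundary is involved.
-/

namespace Fermat.Agent.Lib.SmoothZeta

open MeasureTheory Submodule Module Metric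
open scoped ENNReal Pointwise

section LatticeSum

variable {E : Type*} [NormedAddCommGroup E] [NormedSpace ℝ E] [FiniteDimensional ℝ E]
  [MeasurableSpace E] [BorelSpace E] {ι : Type*} [Fintype ι]

omit [MeasurableSpace E] [BorelSpace E] in
/-- Only finitely many lattice points in a ball. -/
theorem finite_lattice_ball (b : Basis ι ℝ E) (ρ : ℝ) :
    {g : (span ℤ (Set.range b)).toAddSubgroup | ‖(g : E)‖ ≤ ρ}.Finite := by
  have h := ZSpan.setFinite_inter b (isBounded_closedBall (x := (0 : E)) (r := ρ))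
  refine Set.Finite.subset (h.preimage Subtype.val_injective.injOn) ?_
  intro g hg
  simp only [Set.mem_preimage, Set.mem_inter_iff, mem_closedBall, dist_zero_right]
  exact ⟨hg, g.2⟩

omit [FiniteDimensional ℝ E] [MeasurableSpace E] [BorelSpace E] in
theorem norm_le_of_mem_fundamentalDomain (b : Basis ι ℝ E) {x : E}
    (hx : x ∈ ZSpan.fundamentalDomain b) : ‖x‖ ≤ ∑ i, ‖b i‖ := by
  rw [← ZSpan.fract_eq_self.mpr hx]
  exact ZSpan.norm_fract_le b x

/-- Disjoint translates of the fundamental domain by lattice points of norm `≤ ρ` fit in a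
slightly larger ball. -/
theorem card_mul_measure_fundamentalDomain_le (b : Basis ι ℝ E) (μ : Measure E)
    [μ.IsAddHaarMeasure] (S : Finset (span ℤ (Set.range b)).toAddSubgroup) (ρ : ℝ)
    (hS : ∀ g ∈ S, ‖(g : E)‖ ≤ ρ) :
    (S.card : ℝ≥0∞) * μ (ZSpan.fundamentalDomain b) ≤ μ (closedBall 0 (ρ + ∑ i, ‖b i‖)) := by
  have : Countable (span ℤ (Set.range b)).toAddSubgroup := by
    change Countable (span ℤ (Set.range b))
    infer_instance
  have hF := ZSpan.isAddFundamentalDomain' b μ
  calc (S.card : ℝ≥0∞) * μ (ZSpan.fundamentalDomain b)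
      = ∑ g ∈ S, μ (g +ᵥ ZSpan.fundamentalDomain b) := by
        simp [measure_vadd]
    _ = μ (⋃ g ∈ S, g +ᵥ ZSpan.fundamentalDomain b) := by
        refine (measure_biUnion_finset₀ ?_ ?_).symm
        · exact fun g _ g' _ hgg' => hF.aedisjoint hgg'
        · exact fun g _ => hF.nullMeasurableSet_vadd g
    _ ≤ μ (closedBall 0 (ρ + ∑ i, ‖b i‖)) := by
        refine measure_mono ?_
        intro x hx
        simp only [Set.mem_iUnion, exists_prop] at hx
        obtain ⟨g, hg, y, hy, rfl⟩ := hx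
        rw [mem_closedBall, dist_zero_right]
        calc ‖g +ᵥ y‖ = ‖(g : E) + y‖ := rfl
          _ ≤ ‖(g : E)‖ + ‖y‖ := norm_add_le _ _
          _ ≤ ρ + ∑ i, ‖b i‖ := add_le_add (hS g hg) (norm_le_of_mem_fundamentalDomain b hy)

/-- **Lipschitz lattice sum.**  For `W` Lipschitz with constant `Λ` and vanishing outside the
ball of radius `R`, the lattice sum of `W (g / T)` times the covolume equals
`T ^ dim * ∫ W` up to `Λ * d / T * vol (ball (T R + 2 d))`, `d = ∑ ‖b i‖`. -/
theorem abs_latticeSum_sub_le (b : Basis ι ℝ E) (μ : Measure E) [μ.IsAddHaarMeasure]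
    (W : E → ℝ) {Λ R : ℝ} (hΛ : 0 ≤ Λ) (hLip : ∀ x y, |W x - W y| ≤ Λ * ‖x - y‖)
    (hsupp : ∀ x, R < ‖x‖ → W x = 0) {T : ℝ} (hT : 0 < T) :
    |(∑' g : (span ℤ (Set.range b)).toAddSubgroup, W (T⁻¹ • (g : E))) *
          μ.real (ZSpan.fundamentalDomain b) - T ^ finrank ℝ E * ∫ x, W x ∂μ|
      ≤ Λ * (∑ i, ‖b i‖) / T * μ.real (closedBall 0 (T * R + 2 * ∑ i, ‖b i‖)) := by
  classical
  set d := ∑ i, ‖b i‖ with hd
  set F := ZSpan.fundamentalDomain b with hFdef
  have hd0 : 0 ≤ d := Finset.sum_nonneg fun i _ => norm_nonneg _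
  have hFnorm : ∀ x ∈ F, ‖x‖ ≤ d := fun x hx => norm_le_of_mem_fundamentalDomain b hx
  have : Countable (span ℤ (Set.range b)).toAddSubgroup := by
    change Countable (span ℤ (Set.range b))
    infer_instance
  have hF := ZSpan.isAddFundamentalDomain' b μ
  have hFmeas : MeasurableSet F := ZSpan.fundamentalDomain_measurableSet b
  have hFfin : μ F < ⊤ := (ZSpan.fundamentalDomain_isBounded b).measure_lt_top
  -- the rescaled function
  set f : E → ℝ := fun x => W (T⁻¹ • x) with hf
  have hf_lip : ∀ x y, |f x - f y| ≤ Λ / T * ‖x - y‖ := by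
    intro x y
    refine (hLip _ _).trans (le_of_eq ?_)
    rw [← smul_sub, norm_smul, Real.norm_eq_abs, abs_of_pos (inv_pos.mpr hT)]
    field_simp
  have hf_supp : ∀ x, T * R < ‖x‖ → f x = 0 := by
    intro x hx
    apply hsupp
    rw [norm_smul, Real.norm_eq_abs, abs_of_pos (inv_pos.mpr hT), lt_inv_mul_iff₀ hT]
    exact hx
  have hf_cont : Continuous f := by
    have : LipschitzWith (Real.toNNReal (Λ / T)) f := by
      refine LipschitzWith.of_dist_le_mul fun x y => ?_
      rw [Real.dist_eq, dist_eq_norm, Real.coe_toNNReal _ (div_nonneg hΛ hT.le)]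
      exact hf_lip x y
    exact this.continuous
  have hf_cs : HasCompactSupport f := by
    refine HasCompactSupport.of_support_subset_isCompact (isCompact_closedBall (0 : E) (T * R)) ?_
    intro x hx
    rw [mem_closedBall, dist_zero_right]
    by_contra hcon
    exact hx (hf_supp x (not_le.mp hcon))
  have hf_int : Integrable f μ := hf_cont.integrable_of_hasCompactSupport hf_cs
  -- scaling of the integral
  have hscale : ∫ x, f x ∂μ = T ^ finrank ℝ E * ∫ x, W x ∂μ := by
    have := Measure.integral_comp_smul μ W T⁻¹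
    rw [hf, this, inv_pow, inv_inv, abs_of_pos (pow_pos hT _), smul_eq_mul]
  -- tiling
  have htile : ∫ x, f x ∂μ = ∑' g : (span ℤ (Set.range b)).toAddSubgroup,
      ∫ x in F, f (g +ᵥ x) ∂μ := hF.integral_eq_tsum'' f hf_int
  -- the finite set of relevant lattice points
  set S : Finset (span ℤ (Set.range b)).toAddSubgroup :=
    (finite_lattice_ball b (T * R + d)).toFinset with hSdef
  have hS_mem : ∀ g, g ∈ S ↔ ‖(g : E)‖ ≤ T * R + d := by
    intro g; simp [hSdef]
  have hout1 : ∀ g, g ∉ S → f (g : E) = 0 := by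
    intro g hg
    rw [hS_mem, not_le] at hg
    exact hf_supp _ (by linarith)
  have hout2 : ∀ g, g ∉ S → ∫ x in F, f (g +ᵥ x) ∂μ = 0 := by
    intro g hg
    rw [hS_mem, not_le] at hg
    refine setIntegral_eq_zero_of_forall_eq_zero fun x hx => ?_
    apply hf_supp
    have h1 : ‖(g : E)‖ ≤ ‖(g : E) + x‖ + ‖x‖ := by
      simpa using norm_sub_le ((g : E) + x) x
    have h2 := hFnorm x hx
    change T * R < ‖(g : E) + x‖
    linarith
  have hsum1 : ∑' g : (span ℤ (Set.range b)).toAddSubgroup, W (T⁻¹ • (g : E))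
      = ∑ g ∈ S, f (g : E) := tsum_eq_sum fun g hg => hout1 g hg
  have hsum2 : ∑' g : (span ℤ (Set.range b)).toAddSubgroup, ∫ x in F, f (g +ᵥ x) ∂μ
      = ∑ g ∈ S, ∫ x in F, f (g +ᵥ x) ∂μ := tsum_eq_sum fun g hg => hout2 g hg
  rw [← hscale, htile, hsum1, hsum2, Finset.sum_mul, ← Finset.sum_sub_distrib]
  -- termwise bound
  have hterm : ∀ g ∈ S, |f (g : E) * μ.real F - ∫ x in F, f (g +ᵥ x) ∂μ|
      ≤ Λ / T * d * μ.real F := by
    intro g _
    have hint : IntegrableOn (fun x => f (g +ᵥ x)) F μ := by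
      have hc : Continuous fun x : E => f (g +ᵥ x) :=
        hf_cont.comp (continuous_const.add continuous_id)
      refine ⟨hc.aestronglyMeasurable, ?_⟩
      have : IsFiniteMeasure (μ.restrict F) := ⟨by rwa [Measure.restrict_apply_univ]⟩
      refine HasFiniteIntegral.of_bounded (C := |f (g : E)| + Λ / T * d) ?_
      rw [ae_restrict_iff' hFmeas]
      refine Filter.Eventually.of_forall fun x hx => ?_
      rw [Real.norm_eq_abs]
      have h1 := hf_lip ((g : E) + x) (g : E)
      have h2 : Λ / T * ‖(g : E) + x - g‖ ≤ Λ / T * d := by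
        rw [add_sub_cancel_left]
        exact mul_le_mul_of_nonneg_left (hFnorm x hx) (div_nonneg hΛ hT.le)
      have h3 : |f ((g : E) + x)| ≤ |f (g : E)| + |f ((g : E) + x) - f (g : E)| := by
        have := abs_add_le (f (g : E)) (f ((g : E) + x) - f (g : E))
        simpa using this
      change |f ((g : E) + x)| ≤ _
      linarith
    have hconst : f (g : E) * μ.real F = ∫ _x in F, f (g : E) ∂μ := by
      rw [setIntegral_const, smul_eq_mul, mul_comm]
    have hcint : IntegrableOn (fun _ : E => f (g : E)) F μ := integrableOn_const (hs := hFfin.ne)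
    rw [hconst, ← integral_sub hcint hint, ← Real.norm_eq_abs]
    have := norm_setIntegral_le_of_norm_le_const (μ := μ) (s := F) (C := Λ / T * d)
      (f := fun x => f (g : E) - f (g +ᵥ x)) hFfin ?_
    · exact this
    · intro x hx
      rw [Real.norm_eq_abs, abs_sub_comm]
      have h1 := hf_lip ((g : E) + x) (g : E)
      rw [add_sub_cancel_left] at h1
      exact h1.trans (mul_le_mul_of_nonneg_left (hFnorm x hx) (div_nonneg hΛ hT.le))
  calc |∑ g ∈ S, (f (g : E) * μ.real F - ∫ x in F, f (g +ᵥ x) ∂μ)|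
      ≤ ∑ g ∈ S, |f (g : E) * μ.real F - ∫ x in F, f (g +ᵥ x) ∂μ| :=
        Finset.abs_sum_le_sum_abs _ _
    _ ≤ ∑ _g ∈ S, Λ / T * d * μ.real F := Finset.sum_le_sum hterm
    _ = Λ * d / T * (S.card * μ.real F) := by
        rw [Finset.sum_const, nsmul_eq_mul]; ring
    _ ≤ Λ * d / T * μ.real (closedBall 0 (T * R + 2 * d)) := by
        refine mul_le_mul_of_nonneg_left ?_ (div_nonneg (mul_nonneg hΛ hd0) hT.le)
        have hc := card_mul_measure_fundamentalDomain_le b μ S (T * R + d)
          (fun g hg => (hS_mem g).mp hg)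
        have hball : μ (closedBall (0 : E) (T * R + d + d)) < ⊤ := measure_closedBall_lt_top
        have hc' := (ENNReal.toReal_le_toReal (ENNReal.mul_ne_top (by simp) hFfin.ne) hball.ne).mpr hc
        rw [ENNReal.toReal_mul] at hc'
        simp only [ENNReal.toReal_natCast] at hc'
        have h2 : T * R + 2 * d = T * R + d + d := by ring
        rw [h2]
        exact hc'

/-- Power-saving form of `abs_latticeSum_sub_le`: for `T ≥ 1` the error is at most
`C * T ^ dim / T` with `C = Λ * d * (R + 2 d) ^ dim * vol (unit ball)`. -/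
theorem abs_latticeSum_sub_le_pow (b : Basis ι ℝ E) (μ : Measure E) [μ.IsAddHaarMeasure]
    (W : E → ℝ) {Λ R : ℝ} (hΛ : 0 ≤ Λ) (hR : 0 ≤ R) (hLip : ∀ x y, |W x - W y| ≤ Λ * ‖x - y‖)
    (hsupp : ∀ x, R < ‖x‖ → W x = 0) {T : ℝ} (hT : 1 ≤ T) :
    |(∑' g : (span ℤ (Set.range b)).toAddSubgroup, W (T⁻¹ • (g : E))) *
          μ.real (ZSpan.fundamentalDomain b) - T ^ finrank ℝ E * ∫ x, W x ∂μ|
      ≤ Λ * (∑ i, ‖b i‖) * (R + 2 * ∑ i, ‖b i‖) ^ finrank ℝ E * μ.real (closedBall 0 1)
          * (T ^ finrank ℝ E / T) := by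
  have hT0 : 0 < T := lt_of_lt_of_le one_pos hT
  set d := ∑ i, ‖b i‖ with hd
  have hd0 : 0 ≤ d := Finset.sum_nonneg fun i _ => norm_nonneg _
  refine (abs_latticeSum_sub_le b μ W hΛ hLip hsupp hT0).trans ?_
  have hr : 0 ≤ T * R + 2 * d := by positivity
  rw [Measure.addHaar_real_closedBall' μ (0 : E) hr]
  have h1 : (T * R + 2 * d) ^ finrank ℝ E ≤ (T * (R + 2 * d)) ^ finrank ℝ E := by
    refine pow_le_pow_left₀ hr ?_ _
    nlinarith
  have h2 : 0 ≤ μ.real (closedBall (0 : E) 1) := measureReal_nonneg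
  have h3 : 0 ≤ Λ * d / T := by positivity
  calc Λ * d / T * ((T * R + 2 * d) ^ finrank ℝ E * μ.real (closedBall 0 1))
      ≤ Λ * d / T * ((T * (R + 2 * d)) ^ finrank ℝ E * μ.real (closedBall 0 1)) :=
        mul_le_mul_of_nonneg_left (mul_le_mul_of_nonneg_right h1 h2) h3
    _ = Λ * d * (R + 2 * d) ^ finrank ℝ E * μ.real (closedBall 0 1)
          * (T ^ finrank ℝ E / T) := by
        rw [mul_pow]; ring

end LatticeSum

end Fermat.Agent.Lib.SmoothZeta
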