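import Fermat.Agent.Lib.SmoothZeta.UnitWeight
import Fermat.Agent.Lib.SmoothZeta.LatticeSum
import Fermat.Agent.Lib.SmoothCount.Unfold

/-!
# Class sums as lattice sums of the smooth weight

For a nonzero integral ideal `J` of a number field `K`, the lattice sum of the weight
`W K s (g / T)` over the ideal lattice of `J` equals `torsionOrder K` times the smoothed sum
`∑ G s (N I * N J / T ^ n)` over the ideals `I` in the class inverse to the class of `J`
(`tsum_lattice_W_eq`).  The unfolding over principal ideals is `helper6`'s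
`Fermat.Agent.Lib.SmoothCount.tsum_unfold_ennreal`.
-/

namespace Fermat.Agent.Lib.SmoothZeta

open NumberField NumberField.InfinitePlace NumberField.Units
  NumberField.Units.dirichletUnitTheorem NumberField.mixedEmbedding Module
open scoped ENNReal nonZeroDivisors Classical

variable {K : Type*} [Field K] [NumberField K]

/-! ### The sum of the unit weight over all units -/

/-- The parametrisation of the units by a root of unity and the exponents of a fundamental
system. -/
noncomputable def unitParam (p : torsion K × (Fin (rank K) → ℤ)) : (𝓞 K)ˣ :=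
  (p.1 : (𝓞 K)ˣ) * ∏ i, fundSystem K i ^ p.2 i

theorem unitParam_bijective : Function.Bijective (unitParam (K := K)) := by
  constructor
  · intro p q h
    obtain ⟨r, -, hr⟩ := exist_unique_eq_mul_prod K (unitParam p)
    exact (hr p rfl).trans (hr q h).symm
  · intro u
    obtain ⟨r, hr, -⟩ := exist_unique_eq_mul_prod K u
    exact ⟨r, hr.symm⟩

/-- The translates of `P` under ALL units add up to the number of roots of unity. -/
theorem tsum_P_units {x : mixedSpace K} (hx : ∀ w, normAtPlace w x ≠ 0) :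
    ∑' u : (𝓞 K)ˣ, ENNReal.ofReal (P (u • x)) = torsionOrder K := by
  rw [← (Equiv.ofBijective unitParam unitParam_bijective).tsum_eq, ENNReal.tsum_prod']
  have h : ∀ ζ : torsion K, ∑' m : Fin (rank K) → ℤ,
      ENNReal.ofReal (P ((Equiv.ofBijective unitParam unitParam_bijective) (ζ, m) • x)) = 1 :=
    fun ζ => tsum_P_unit_smul ζ.2 hx
  simp_rw [h]
  have : Fintype (torsion K) := Fintype.ofFinite _
  rw [tsum_fintype, Finset.sum_const, Finset.card_univ, nsmul_eq_mul, mul_one, torsionOrder,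
    Nat.card_eq_fintype_card]

omit [NumberField K] in
theorem smul_unit_smul (c : ℝ) (u : (𝓞 K)ˣ) (x : mixedSpace K) :
    c • (u • x) = u • (c • x) := by
  rw [unitSMul_smul, unitSMul_smul, mul_smul_comm]

omit [NumberField K] in
theorem normAtPlace_smul_ne_zero {c : ℝ} (hc : c ≠ 0) {x : mixedSpace K}
    (hx : ∀ w, normAtPlace w x ≠ 0) (w : InfinitePlace K) : normAtPlace w (c • x) ≠ 0 := by
  rw [normAtPlace_smul]
  exact mul_ne_zero (abs_ne_zero.mpr hc) (hx w)

/-! ### The ideal lattice -/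

/-- The elements of the ideal `J` are the points of its lattice in the mixed space. -/
noncomputable def latticeEquiv (J : (Ideal (𝓞 K))⁰) :
    ↥(J : Ideal (𝓞 K)) ≃ (Submodule.span ℤ (Set.range
      (fractionalIdealLatticeBasis K (FractionalIdeal.mk0 K J)))).toAddSubgroup :=
  Equiv.ofBijective (fun γ => ⟨mixedEmbedding K ((γ : 𝓞 K) : K), by
      rw [Submodule.mem_toAddSubgroup, mem_span_fractionalIdealLatticeBasis]
      refine ⟨((γ : 𝓞 K) : K), ?_, rfl⟩
      rw [SetLike.mem_coe, FractionalIdeal.coe_mk0, FractionalIdeal.mem_coeIdeal]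
      exact ⟨γ, γ.2, rfl⟩⟩) (by
    constructor
    · intro γ γ' h
      have h1 : mixedEmbedding K ((γ : 𝓞 K) : K) = mixedEmbedding K ((γ' : 𝓞 K) : K) :=
        congrArg Subtype.val h
      exact Subtype.ext (RingOfIntegers.coe_injective (mixedEmbedding_injective K h1))
    · rintro ⟨g, hg⟩
      rw [Submodule.mem_toAddSubgroup, mem_span_fractionalIdealLatticeBasis] at hg
      obtain ⟨y, hy, rfl⟩ := hg
      rw [SetLike.mem_coe, FractionalIdeal.coe_mk0, FractionalIdeal.mem_coeIdeal] at hy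
      obtain ⟨a, ha, rfl⟩ := hy
      exact ⟨⟨a, ha⟩, rfl⟩)

theorem latticeEquiv_coe (J : (Ideal (𝓞 K))⁰) (γ : ↥(J : Ideal (𝓞 K))) :
    ((latticeEquiv J γ : (Submodule.span ℤ (Set.range
      (fractionalIdealLatticeBasis K (FractionalIdeal.mk0 K J)))).toAddSubgroup) : mixedSpace K)
      = mixedEmbedding K ((γ : 𝓞 K) : K) := rfl

theorem tsum_lattice_eq {α : Type*} [AddCommMonoid α] [TopologicalSpace α]
    (J : (Ideal (𝓞 K))⁰) (f : mixedSpace K → α) :
    ∑' g : (Submodule.span ℤ (Set.range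
      (fractionalIdealLatticeBasis K (FractionalIdeal.mk0 K J)))).toAddSubgroup,
        f (g : mixedSpace K)
      = ∑' γ : ↥(J : Ideal (𝓞 K)), f (mixedEmbedding K ((γ : 𝓞 K) : K)) :=
  ((latticeEquiv J).tsum_eq fun g => f (g : mixedSpace K)).symm

/-! ### The unfolding -/

omit [NumberField K] in
theorem normAtPlace_mixedEmbedding_ne_zero {γ : 𝓞 K} (hγ : γ ≠ 0) (w : InfinitePlace K) :
    normAtPlace w (mixedEmbedding K (γ : K)) ≠ 0 := by
  rw [normAtPlace_apply]
  exact (map_ne_zero _).mpr (RingOfIntegers.coe_ne_zero_iff.mpr hγ)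

theorem norm_mixedEmbedding_eq_absNorm (γ : 𝓞 K) :
    mixedEmbedding.norm (mixedEmbedding K (γ : K)) = (Ideal.absNorm (Ideal.span {γ}) : ℝ) := by
  rw [norm_eq_norm, Ideal.absNorm_span_singleton, Nat.cast_natAbs, ← Rat.cast_intCast,
    Int.cast_abs, Algebra.coe_norm_int, Rat.cast_abs]

/-- **Unfolding of the smooth lattice sum.** -/
theorem tsum_lattice_W_eq (J : (Ideal (𝓞 K))⁰) (s : ℝ) {T : ℝ} (hT : 0 < T) :
    ∑' g : (Submodule.span ℤ (Set.range
      (fractionalIdealLatticeBasis K (FractionalIdeal.mk0 K J)))).toAddSubgroup,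
        ENNReal.ofReal (W K s (T⁻¹ • (g : mixedSpace K)))
      = torsionOrder K *
        ∑' I : {I : (Ideal (𝓞 K))⁰ // ClassGroup.mk0 I = (ClassGroup.mk0 J)⁻¹},
          ENNReal.ofReal (G s (((Ideal.absNorm (I : Ideal (𝓞 K)) *
            Ideal.absNorm (J : Ideal (𝓞 K)) : ℕ) : ℝ) / T ^ finrank ℚ K)) := by
  have hT' : T⁻¹ ≠ 0 := inv_ne_zero hT.ne'
  rw [tsum_lattice_eq J (fun x => ENNReal.ofReal (W K s (T⁻¹ • x)))]
  -- remove the zero element
  have hsupp : Function.support (fun γ : ↥(J : Ideal (𝓞 K)) =>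
      ENNReal.ofReal (W K s (T⁻¹ • mixedEmbedding K ((γ : 𝓞 K) : K)))) ⊆ {γ | γ ≠ 0} := by
    intro γ hγ h0
    apply hγ
    have h1 : ((γ : 𝓞 K) : K) = 0 := by rw [h0]; simp
    have h2 : W K s (T⁻¹ • mixedEmbedding K ((γ : 𝓞 K) : K)) = 0 := by
      rw [h1, map_zero, smul_zero]
      exact W_eq_zero_of_normAtPlace_eq_zero (w := w₀) (map_zero _)
    simp only [h2, ENNReal.ofReal_zero]
  rw [← tsum_subtype_eq_of_support_subset hsupp]
  -- the unfolding
  have hw : ∀ x : mixedSpace K, mixedEmbedding.norm x ≠ 0 →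
      ∑' u : (𝓞 K)ˣ, (fun x => ENNReal.ofReal (P (T⁻¹ • x))) (u • x) = (torsionOrder K : ℝ≥0∞) := by
    intro x hx
    simp only [smul_unit_smul]
    exact tsum_P_units (normAtPlace_smul_ne_zero hT' (mixedEmbedding.norm_ne_zero_iff.mp hx))
  have key := Fermat.Agent.Lib.SmoothCount.tsum_unfold_ennreal
    (fun x : mixedSpace K => ENNReal.ofReal (P (T⁻¹ • x))) (torsionOrder K : ℝ≥0∞) hw J
    (fun m : ℕ => ENNReal.ofReal (G s ((m : ℝ) / T ^ finrank ℚ K)))
  rw [← key]
  refine tsum_congr fun γ => ?_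
  have hγ : ((γ : ↥(J : Ideal (𝓞 K))) : 𝓞 K) ≠ 0 := fun h => γ.2 (Subtype.ext h)
  have hx := normAtPlace_smul_ne_zero hT' (normAtPlace_mixedEmbedding_ne_zero hγ)
  rw [W_eq_P_mul_G hx, ENNReal.ofReal_mul (P_nonneg _), mixedEmbedding.norm_smul,
    norm_mixedEmbedding_eq_absNorm, abs_of_pos (inv_pos.mpr hT), inv_pow, inv_mul_eq_div]

/-- The smooth lattice sum is finite. -/
theorem tsum_lattice_W_lt_top (J : (Ideal (𝓞 K))⁰) (s : ℝ) {T : ℝ} (hT : 0 < T) :
    ∑' g : (Submodule.span ℤ (Set.range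
      (fractionalIdealLatticeBasis K (FractionalIdeal.mk0 K J)))).toAddSubgroup,
        ENNReal.ofReal (W K s (T⁻¹ • (g : mixedSpace K))) < ⊤ := by
  set S := (finite_lattice_ball (fractionalIdealLatticeBasis K (FractionalIdeal.mk0 K J))
    (T * Real.exp (AK K))).toFinset with hS
  have hout : ∀ g, g ∉ S → ENNReal.ofReal (W K s (T⁻¹ • (g : mixedSpace K))) = 0 := by
    intro g hg
    have hg' : T * Real.exp (AK K) < ‖(g : mixedSpace K)‖ := by
      by_contra hcon
      apply hg
      rw [hS, Set.Finite.mem_toFinset]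
      exact not_lt.mp hcon
    rw [W_eq_zero_of_lt_norm, ENNReal.ofReal_zero]
    rw [_root_.norm_smul, Real.norm_eq_abs, abs_of_pos (inv_pos.mpr hT), lt_inv_mul_iff₀ hT]
    exact hg'
  rw [tsum_eq_sum hout]
  exact ENNReal.sum_lt_top.mpr fun g _ => ENNReal.ofReal_lt_top

end Fermat.Agent.Lib.SmoothZeta
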