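import Fermat.Agent.Lib.SmoothZeta.Bound
import Fermat.Agent.S14.Thaine.Plan

/-!
# `ClassZetaStmt` (S14, Thaine route) by smoothed dyadic class sums

The contract `Fermat.Agent.S14.Thaine.ClassZetaStmt`: the partial zeta functions of two ideal
classes of a number field converge for `s > 1` and differ by a bounded function on `(1, 2]`.
-/

namespace Fermat.Agent.Lib.SmoothZeta

open scoped NumberField nonZeroDivisors

/-- [ClassZeta] of the Thaine plan, route (c): smoothed dyadic class sums. -/
theorem classZetaStmt : Fermat.Agent.S14.Thaine.ClassZetaStmt := by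
  intro K _ _ c c'
  refine ⟨fun s hs => Fermat.Agent.Lib.IdealEulerNF.summable_absNorm_rpow_class K c hs, ?_⟩
  obtain ⟨B, hB⟩ := exists_bound_classZeta_sub K c c'
  exact ⟨B, fun s hs1 hs2 => hB s hs1 hs2⟩

end Fermat.Agent.Lib.SmoothZeta
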