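import Mathlib

/-!
# Real-variable toolbox for the smoothed class sums

* `hat t = max 0 (1 - |t|)`: a `1`-Lipschitz bump whose integer translates form a partition of
  unity (`tsum_prod_hat_eq_one`, in any finite number of variables);
* `clog A r`: the logarithm of `r` clamped to `[exp (-A), exp A]`, which is `exp A`-Lipschitz;
* elementary Lipschitz estimates for products.
-/

namespace Fermat.Agent.Lib.SmoothZeta

open scoped ENNReal

/-- The hat function `max 0 (1 - |t|)`. -/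
noncomputable def hat (t : ℝ) : ℝ := max 0 (1 - |t|)

theorem hat_nonneg (t : ℝ) : 0 ≤ hat t := le_max_left _ _

theorem hat_le_one (t : ℝ) : hat t ≤ 1 := max_le zero_le_one (by linarith [abs_nonneg t])

theorem abs_hat_le_one (t : ℝ) : |hat t| ≤ 1 := by
  rw [abs_of_nonneg (hat_nonneg t)]; exact hat_le_one t

theorem hat_eq_zero {t : ℝ} (ht : 1 ≤ |t|) : hat t = 0 := max_eq_left (by linarith)

theorem abs_lt_one_of_hat_ne_zero {t : ℝ} (ht : hat t ≠ 0) : |t| < 1 := by
  by_contra h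
  exact ht (hat_eq_zero (not_lt.mp h))

theorem hat_of_abs_le {t : ℝ} (ht : |t| ≤ 1) : hat t = 1 - |t| := max_eq_right (by linarith)

theorem abs_hat_sub_hat_le (a b : ℝ) : |hat a - hat b| ≤ |a - b| := by
  unfold hat
  rw [max_comm 0, max_comm 0]
  refine (abs_max_sub_max_le_abs _ _ _).trans ?_
  have h : (1 - |a|) - (1 - |b|) = |b| - |a| := by ring
  rw [h, abs_sub_comm a b]
  exact abs_abs_sub_abs_le b a

/-- The two integer translates of the hat function that can be nonzero at `c` add up to `1`. -/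
theorem hat_add_hat (c : ℝ) :
    hat (c + ((-⌊c⌋ : ℤ) : ℝ)) + hat (c + ((-⌊c⌋ - 1 : ℤ) : ℝ)) = 1 := by
  have h0 := Int.fract_nonneg c
  have h1 := Int.fract_lt_one c
  have e1 : c + ((-⌊c⌋ : ℤ) : ℝ) = Int.fract c := by
    rw [Int.fract]; push_cast; ring
  have e2 : c + ((-⌊c⌋ - 1 : ℤ) : ℝ) = Int.fract c - 1 := by
    rw [Int.fract]; push_cast; ring
  rw [e1, e2, hat_of_abs_le (by rw [abs_of_nonneg h0]; exact h1.le),
    hat_of_abs_le (by rw [abs_of_nonpos (by linarith)]; linarith),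
    abs_of_nonneg h0, abs_of_nonpos (by linarith)]
  ring

theorem hat_int_shift_eq_zero (c : ℝ) (m : ℤ) (h1 : m ≠ -⌊c⌋) (h2 : m ≠ -⌊c⌋ - 1) :
    hat (c + (m : ℝ)) = 0 := by
  apply hat_eq_zero
  have h0 := Int.fract_nonneg c
  have hlt := Int.fract_lt_one c
  have e : c + (m : ℝ) = Int.fract c + ((⌊c⌋ + m : ℤ) : ℝ) := by
    rw [Int.fract]; push_cast; ring
  rw [e]
  rcases lt_trichotomy (⌊c⌋ + m) 0 with h | h | h
  · have h' : ⌊c⌋ + m ≤ -2 := by
      have : ⌊c⌋ + m ≠ -1 := fun h3 => h2 (by omega)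
      omega
    have h'' : ((⌊c⌋ + m : ℤ) : ℝ) ≤ -2 := by exact_mod_cast h'
    rw [abs_of_nonpos (by linarith)]
    linarith
  · exact absurd (by omega) h1
  · have h' : (1 : ℝ) ≤ ((⌊c⌋ + m : ℤ) : ℝ) := by exact_mod_cast h
    rw [abs_of_nonneg (by linarith)]
    linarith

/-- Integer translates of the product hat function form a partition of unity. -/
theorem tsum_prod_hat_eq_one {ι : Type*} [Fintype ι] (c : ι → ℝ) :
    ∑' m : ι → ℤ, ENNReal.ofReal (∏ i, hat (c i + (m i : ℝ))) = 1 := by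
  classical
  set S : Finset (ι → ℤ) :=
    Fintype.piFinset (fun i => ({-⌊c i⌋, -⌊c i⌋ - 1} : Finset ℤ)) with hS
  have hout : ∀ m, m ∉ S → ENNReal.ofReal (∏ i, hat (c i + (m i : ℝ))) = 0 := by
    intro m hm
    rw [hS, Fintype.mem_piFinset, not_forall] at hm
    obtain ⟨i, hi⟩ := hm
    rw [Finset.mem_insert, Finset.mem_singleton, not_or] at hi
    rw [Finset.prod_eq_zero (Finset.mem_univ i) (hat_int_shift_eq_zero (c i) (m i) hi.1 hi.2),
      ENNReal.ofReal_zero]
  rw [tsum_eq_sum hout, ← ENNReal.ofReal_sum_of_nonneg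
    (fun m _ => Finset.prod_nonneg fun i _ => hat_nonneg _)]
  have hprod := Finset.prod_univ_sum (fun i => ({-⌊c i⌋, -⌊c i⌋ - 1} : Finset ℤ))
    (fun i (k : ℤ) => hat (c i + (k : ℝ)))
  rw [← hprod]
  have hone : ∀ i, ∑ k ∈ ({-⌊c i⌋, -⌊c i⌋ - 1} : Finset ℤ), hat (c i + (k : ℝ)) = 1 := by
    intro i
    rw [Finset.sum_pair (by omega)]
    exact hat_add_hat (c i)
  simp [hone]

/-- For `t ≥ 0` the natural-number translates of the hat function already add up to `1`. -/
theorem tsum_nat_hat_eq_one {t : ℝ} (ht : 0 ≤ t) : ∑' k : ℕ, hat (t - (k : ℝ)) = 1 := by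
  have hfl : ((⌊t⌋₊ : ℕ) : ℝ) ≤ t := Nat.floor_le ht
  have hlt : t < ((⌊t⌋₊ : ℕ) : ℝ) + 1 := Nat.lt_floor_add_one t
  have hout : ∀ k : ℕ, k ∉ ({⌊t⌋₊, ⌊t⌋₊ + 1} : Finset ℕ) → hat (t - (k : ℝ)) = 0 := by
    intro k hk
    rw [Finset.mem_insert, Finset.mem_singleton, not_or] at hk
    apply hat_eq_zero
    rcases lt_or_gt_of_ne hk.1 with h | h
    · have h' : (k : ℝ) + 1 ≤ ((⌊t⌋₊ : ℕ) : ℝ) := by exact_mod_cast h
      rw [abs_of_nonneg (by linarith)]
      linarith
    · have h2 : ⌊t⌋₊ + 2 ≤ k := by omega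
      have h' : ((⌊t⌋₊ : ℕ) : ℝ) + 2 ≤ (k : ℝ) := by exact_mod_cast h2
      rw [abs_of_nonpos (by linarith)]
      linarith
  rw [tsum_eq_sum hout, Finset.sum_pair (by omega)]
  rw [hat_of_abs_le (by rw [abs_of_nonneg (by linarith)]; linarith),
    hat_of_abs_le (by rw [abs_of_nonpos (by push_cast; linarith)]; push_cast; linarith),
    abs_of_nonneg (by linarith), abs_of_nonpos (by push_cast; linarith)]
  push_cast
  ring

/-! ### The clamped logarithm -/

/-- Logarithm of `r` clamped to the interval `[exp (-A), exp A]`. -/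
noncomputable def clog (A r : ℝ) : ℝ := Real.log (max (Real.exp (-A)) (min r (Real.exp A)))

theorem clog_eq_log {A r : ℝ} (h1 : Real.exp (-A) ≤ r) (h2 : r ≤ Real.exp A) :
    clog A r = Real.log r := by
  rw [clog, min_eq_left h2, max_eq_right h1]

theorem clog_of_le {A r : ℝ} (hA : 0 ≤ A) (h : r ≤ Real.exp (-A)) : clog A r = -A := by
  have h2 : r ≤ Real.exp A := h.trans (Real.exp_le_exp.mpr (by linarith))
  rw [clog, min_eq_left h2, max_eq_left h, Real.log_exp]

theorem clog_of_ge {A r : ℝ} (hA : 0 ≤ A) (h : Real.exp A ≤ r) : clog A r = A := by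
  have h2 : Real.exp (-A) ≤ Real.exp A := Real.exp_le_exp.mpr (by linarith)
  rw [clog, min_eq_right h, max_eq_right h2, Real.log_exp]

theorem abs_log_sub_log_le {m a b : ℝ} (hm : 0 < m) (ha : m ≤ a) (hb : m ≤ b) :
    |Real.log a - Real.log b| ≤ m⁻¹ * |a - b| := by
  have key : ∀ a b : ℝ, m ≤ a → m ≤ b → Real.log a - Real.log b ≤ m⁻¹ * |a - b| := by
    intro a b ha hb
    have ha0 : 0 < a := lt_of_lt_of_le hm ha
    have hb0 : 0 < b := lt_of_lt_of_le hm hb
    have h1 : Real.log a - Real.log b = Real.log (a / b) := (Real.log_div ha0.ne' hb0.ne').symm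
    have h2 : Real.log (a / b) ≤ a / b - 1 := Real.log_le_sub_one_of_pos (div_pos ha0 hb0)
    have h3 : a / b - 1 = (a - b) / b := by field_simp
    have h4 : (a - b) / b ≤ |a - b| / b := div_le_div_of_nonneg_right (le_abs_self _) hb0.le
    have h5 : |a - b| / b ≤ m⁻¹ * |a - b| := by
      rw [div_eq_inv_mul]
      exact mul_le_mul_of_nonneg_right (inv_anti₀ hm hb) (abs_nonneg _)
    linarith
  rw [abs_le]
  constructor
  · have := key b a hb ha
    rw [abs_sub_comm] at this
    linarith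
  · exact key a b ha hb

theorem abs_clog_sub_clog_le (A r r' : ℝ) :
    |clog A r - clog A r'| ≤ Real.exp A * |r - r'| := by
  unfold clog
  have hm : 0 < Real.exp (-A) := Real.exp_pos _
  have h := abs_log_sub_log_le hm (le_max_left (Real.exp (-A)) (min r (Real.exp A)))
    (le_max_left (Real.exp (-A)) (min r' (Real.exp A)))
  have hinv : (Real.exp (-A))⁻¹ = Real.exp A := by rw [Real.exp_neg, inv_inv]
  rw [hinv] at h
  refine h.trans (mul_le_mul_of_nonneg_left ?_ (Real.exp_pos _).le)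
  rw [max_comm _ (min r _), max_comm _ (min r' _)]
  refine (abs_max_sub_max_le_abs _ _ _).trans ?_
  refine (abs_min_sub_min_le_max _ _ _ _).trans ?_
  simp

/-! ### Clamping to `[-1, 1]` and exponentials -/

/-- Clamp to `[-1, 1]`. -/
noncomputable def clamp1 (t : ℝ) : ℝ := max (-1) (min t 1)

theorem clamp1_eq_self {t : ℝ} (ht : |t| ≤ 1) : clamp1 t = t := by
  rw [abs_le] at ht
  rw [clamp1, min_eq_left ht.2, max_eq_right ht.1]

theorem abs_clamp1_le (t : ℝ) : |clamp1 t| ≤ 1 := by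
  rw [abs_le, clamp1]
  exact ⟨le_max_left _ _, max_le (by norm_num) (min_le_right _ _)⟩

theorem abs_clamp1_sub_le (a b : ℝ) : |clamp1 a - clamp1 b| ≤ |a - b| := by
  unfold clamp1
  rw [max_comm _ (min a _), max_comm _ (min b _)]
  refine (abs_max_sub_max_le_abs _ _ _).trans ?_
  refine (abs_min_sub_min_le_max _ _ _ _).trans ?_
  simp

theorem abs_exp_sub_exp_le {a b M : ℝ} (ha : a ≤ M) (hb : b ≤ M) :
    |Real.exp a - Real.exp b| ≤ Real.exp M * |a - b| := by
  have key : ∀ a b : ℝ, a ≤ M → b ≤ M → Real.exp a - Real.exp b ≤ Real.exp M * |a - b| := by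
    intro a b ha _
    have h1 : Real.exp a - Real.exp b = Real.exp a * (1 - Real.exp (b - a)) := by
      rw [mul_sub, mul_one, ← Real.exp_add]; ring_nf
    have h2 : 1 - Real.exp (b - a) ≤ a - b := by
      have := Real.add_one_le_exp (b - a)
      linarith
    have h3 : Real.exp a * (1 - Real.exp (b - a)) ≤ Real.exp a * |a - b| :=
      mul_le_mul_of_nonneg_left (h2.trans (le_abs_self _)) (Real.exp_pos _).le
    have h4 : Real.exp a * |a - b| ≤ Real.exp M * |a - b| :=
      mul_le_mul_of_nonneg_right (Real.exp_le_exp.mpr ha) (abs_nonneg _)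
    linarith
  rw [abs_le]
  constructor
  · have := key b a hb ha
    rw [abs_sub_comm] at this
    linarith
  · exact key a b ha hb

/-! ### Products -/

theorem abs_mul_sub_mul_le {a b a' b' Ma Mb : ℝ} (ha : |a| ≤ Ma) (hb' : |b'| ≤ Mb) :
    |a * b - a' * b'| ≤ Ma * |b - b'| + Mb * |a - a'| := by
  have h : a * b - a' * b' = a * (b - b') + (a - a') * b' := by ring
  rw [h]
  refine (abs_add_le _ _).trans ?_
  rw [abs_mul, abs_mul, mul_comm |a - a'|]
  exact add_le_add (mul_le_mul_of_nonneg_right ha (abs_nonneg _))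
    (mul_le_mul_of_nonneg_right hb' (abs_nonneg _))

theorem abs_prod_sub_prod_le {ι : Type*} (s : Finset ι) (a b : ι → ℝ)
    (ha : ∀ i ∈ s, |a i| ≤ 1) (hb : ∀ i ∈ s, |b i| ≤ 1) :
    |∏ i ∈ s, a i - ∏ i ∈ s, b i| ≤ ∑ i ∈ s, |a i - b i| := by
  classical
  induction s using Finset.induction_on with
  | empty => simp
  | insert j s hj ih =>
    rw [Finset.prod_insert hj, Finset.prod_insert hj, Finset.sum_insert hj]
    have h1 : |a j| ≤ 1 := ha j (Finset.mem_insert_self j s)
    have h2 : |∏ i ∈ s, b i| ≤ 1 := by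
      rw [Finset.abs_prod]
      exact Finset.prod_le_one (fun i _ => abs_nonneg _)
        (fun i hi => hb i (Finset.mem_insert_of_mem hi))
    have h3 := ih (fun i hi => ha i (Finset.mem_insert_of_mem hi))
      (fun i hi => hb i (Finset.mem_insert_of_mem hi))
    have h4 := abs_mul_sub_mul_le (a := a j) (b := ∏ i ∈ s, a i) (a' := b j)
      (b' := ∏ i ∈ s, b i) h1 h2
    linarith

end Fermat.Agent.Lib.SmoothZeta
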