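import Fermat.Agent.Lib.SmoothZeta.Hat

/-!
# A Lipschitz partition of unity for the action of the units on the mixed space

Let `K` be a number field.  We construct a function `W s : mixedSpace K → ℝ` which is
Lipschitz, compactly supported, and such that for `x` with all coordinates nonzero
`W s x = P x * G s (norm x)`, where the translates of `P` under the units modulo torsion form
an exact partition of unity (`tsum_P_unit_smul`).  No fundamental domain (cone) is used.
-/

namespace Fermat.Agent.Lib.SmoothZeta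

open NumberField NumberField.InfinitePlace NumberField.Units
  NumberField.Units.dirichletUnitTheorem NumberField.mixedEmbedding Module
open scoped ENNReal Classical

variable (K : Type*) [Field K] [NumberField K]

/-- The real basis of `logSpace K` given by the logarithms of a fundamental system of units. -/
noncomputable def unitBasis : Basis (Fin (rank K)) ℝ (logSpace K) :=
  (basisUnitLattice K).ofZLatticeBasis ℝ (unitLattice K)

theorem unitBasis_apply (i : Fin (rank K)) :
    unitBasis K i = logEmbedding K (Additive.ofMul (fundSystem K i)) := by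
  rw [unitBasis, Basis.ofZLatticeBasis_apply, logEmbedding_fundSystem]

/-- Multiply by the multiplicities and forget the distinguished place. -/
noncomputable def multRestrict : (InfinitePlace K → ℝ) →ₗ[ℝ] logSpace K where
  toFun y := fun w => (mult w.val : ℝ) * y w.val
  map_add' y y' := by
    ext w
    simp [mul_add]
  map_smul' c y := by
    ext w
    simp only [Pi.smul_apply, smul_eq_mul, RingHom.id_apply]
    ring

theorem multRestrict_apply (y : InfinitePlace K → ℝ) (w : {w : InfinitePlace K // w ≠ w₀}) :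
    multRestrict K y w = (mult w.val : ℝ) * y w.val := rfl

/-- Coordinates, in the basis of fundamental units, of a vector of logarithms. -/
noncomputable def cc : (InfinitePlace K → ℝ) →ₗ[ℝ] (Fin (rank K) → ℝ) :=
  (unitBasis K).equivFun.toLinearMap ∘ₗ multRestrict K

theorem cc_apply (y : InfinitePlace K → ℝ) :
    cc K y = (unitBasis K).equivFun (multRestrict K y) := rfl

/-- The logarithm of the norm as a linear form in the logarithms. -/
noncomputable def nu : (InfinitePlace K → ℝ) →ₗ[ℝ] ℝ where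
  toFun y := ∑ w, (mult w : ℝ) * y w
  map_add' y y' := by
    simp [mul_add, Finset.sum_add_distrib]
  map_smul' c y := by
    simp only [Pi.smul_apply, smul_eq_mul, RingHom.id_apply, Finset.mul_sum]
    refine Finset.sum_congr rfl fun w _ => ?_
    ring

theorem nu_apply (y : InfinitePlace K → ℝ) : nu K y = ∑ w, (mult w : ℝ) * y w := rfl

theorem ker_cc_prod_nu : LinearMap.ker ((cc K).prod (nu K)) = ⊥ := by
  classical
  rw [LinearMap.ker_eq_bot']
  intro y hy
  change (cc K y, nu K y) = 0 at hy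
  rw [Prod.mk_eq_zero] at hy
  obtain ⟨h1, h2⟩ := hy
  have h3 : multRestrict K y = 0 := by
    rw [cc_apply] at h1
    exact (LinearEquiv.map_eq_zero_iff _).mp h1
  have h4 : ∀ w : InfinitePlace K, w ≠ w₀ → y w = 0 := by
    intro w hw
    have h5 := congrFun h3 ⟨w, hw⟩
    rw [multRestrict_apply, Pi.zero_apply] at h5
    exact (mul_eq_zero.mp h5).resolve_left mult_coe_ne_zero
  funext w
  by_cases hw : w = w₀
  · have h6 : nu K y = (mult (w₀ : InfinitePlace K) : ℝ) * y w₀ := by
      rw [nu_apply]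
      refine Finset.sum_eq_single w₀ (fun w' _ hw' => ?_) (fun h => absurd (Finset.mem_univ _) h)
      rw [h4 w' hw', mul_zero]
    rw [h6] at h2
    rw [hw]
    exact (mul_eq_zero.mp h2).resolve_left mult_coe_ne_zero
  · exact h4 w hw

/-- A vector of logarithms is bounded by its unit coordinates and its log-norm. -/
theorem exists_bound_of_cc_nu : ∃ A : ℝ, 0 < A ∧ ∀ y : InfinitePlace K → ℝ,
    (∀ i, |cc K y i| ≤ 1) → |nu K y| ≤ 1 → ∀ w, |y w| < A := by
  obtain ⟨C, hC, hanti⟩ :=
    LinearMap.exists_antilipschitzWith ((cc K).prod (nu K)) (ker_cc_prod_nu K)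
  refine ⟨C + 1, by positivity, fun y h1 h2 w => ?_⟩
  have h3 : ‖y‖ ≤ C * ‖((cc K).prod (nu K)) y‖ := by
    have := hanti.le_mul_dist y 0
    simpa [dist_eq_norm] using this
  have h4 : ‖((cc K).prod (nu K)) y‖ ≤ 1 := by
    change ‖(cc K y, nu K y)‖ ≤ 1
    rw [Prod.norm_def]
    refine max_le ?_ (by rwa [Real.norm_eq_abs])
    rw [pi_norm_le_iff_of_nonneg zero_le_one]
    intro i
    rw [Real.norm_eq_abs]
    exact h1 i
  have h5 : |y w| ≤ ‖y‖ := by
    have := norm_le_pi_norm y w
    rwa [Real.norm_eq_abs] at this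
  have h6 : (C : ℝ) * ‖((cc K).prod (nu K)) y‖ ≤ C * 1 :=
    mul_le_mul_of_nonneg_left h4 C.coe_nonneg
  linarith

theorem exists_cc_bound : ∃ C : ℝ, 0 ≤ C ∧ ∀ (y : InfinitePlace K → ℝ) (i : Fin (rank K)),
    |cc K y i| ≤ C * ‖y‖ := by
  refine ⟨‖LinearMap.toContinuousLinearMap (cc K)‖, norm_nonneg _, fun y i => ?_⟩
  have h1 := (LinearMap.toContinuousLinearMap (cc K)).le_opNorm y
  have h2 := norm_le_pi_norm (cc K y) i
  rw [Real.norm_eq_abs] at h2
  exact h2.trans h1

theorem exists_nu_bound : ∃ C : ℝ, 0 ≤ C ∧ ∀ (y : InfinitePlace K → ℝ), |nu K y| ≤ C * ‖y‖ := by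
  refine ⟨‖LinearMap.toContinuousLinearMap (nu K)‖, norm_nonneg _, fun y => ?_⟩
  have h1 := (LinearMap.toContinuousLinearMap (nu K)).le_opNorm y
  rwa [LinearMap.coe_toContinuousLinearMap', Real.norm_eq_abs] at h1

/-! ### The model weight in logarithmic coordinates -/

/-- The product of hats of the unit coordinates. -/
noncomputable def PsiP (y : InfinitePlace K → ℝ) : ℝ := ∏ i, hat (cc K y i)

/-- The radial factor: `hat (ν / log 2) * exp (- s * ν)` (with `ν` clamped). -/
noncomputable def PsiQ (s : ℝ) (y : InfinitePlace K → ℝ) : ℝ :=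
  hat (nu K y / Real.log 2) * Real.exp (-s * clamp1 (nu K y))

/-- The model weight in logarithmic coordinates. -/
noncomputable def Psi (s : ℝ) (y : InfinitePlace K → ℝ) : ℝ := PsiP K y * PsiQ K s y

theorem PsiP_nonneg (y : InfinitePlace K → ℝ) : 0 ≤ PsiP K y :=
  Finset.prod_nonneg fun _ _ => hat_nonneg _

theorem abs_PsiP_le_one (y : InfinitePlace K → ℝ) : |PsiP K y| ≤ 1 := by
  rw [PsiP, Finset.abs_prod]
  exact Finset.prod_le_one (fun _ _ => abs_nonneg _) (fun _ _ => abs_hat_le_one _)

theorem PsiQ_nonneg (s : ℝ) (y : InfinitePlace K → ℝ) : 0 ≤ PsiQ K s y :=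
  mul_nonneg (hat_nonneg _) (Real.exp_pos _).le

theorem Psi_nonneg (s : ℝ) (y : InfinitePlace K → ℝ) : 0 ≤ Psi K s y :=
  mul_nonneg (PsiP_nonneg K y) (PsiQ_nonneg K s y)

theorem neg_mul_clamp1_le {s : ℝ} (hs0 : 0 ≤ s) (hs2 : s ≤ 2) (t : ℝ) : -s * clamp1 t ≤ 2 := by
  have h := abs_le.mp (abs_clamp1_le t)
  nlinarith [h.1, h.2]

theorem abs_PsiQ_le {s : ℝ} (hs0 : 0 ≤ s) (hs2 : s ≤ 2) (y : InfinitePlace K → ℝ) :
    |PsiQ K s y| ≤ Real.exp 2 := by
  rw [abs_of_nonneg (PsiQ_nonneg K s y), PsiQ]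
  calc hat (nu K y / Real.log 2) * Real.exp (-s * clamp1 (nu K y))
      ≤ 1 * Real.exp 2 := mul_le_mul (hat_le_one _)
        (Real.exp_le_exp.mpr (neg_mul_clamp1_le hs0 hs2 _)) (Real.exp_pos _).le zero_le_one
    _ = Real.exp 2 := one_mul _

theorem Psi_ne_zero_imp {s : ℝ} {y : InfinitePlace K → ℝ} (h : Psi K s y ≠ 0) :
    (∀ i, |cc K y i| < 1) ∧ |nu K y| < Real.log 2 := by
  rw [Psi, mul_ne_zero_iff] at h
  obtain ⟨h1, h2⟩ := h
  constructor
  · intro i
    apply abs_lt_one_of_hat_ne_zero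
    intro h0
    exact h1 (Finset.prod_eq_zero (Finset.mem_univ i) h0)
  · rw [PsiQ, mul_ne_zero_iff] at h2
    have h3 := abs_lt_one_of_hat_ne_zero h2.1
    have hl : 0 < Real.log 2 := Real.log_pos (by norm_num)
    rwa [abs_div, abs_of_pos hl, div_lt_one hl] at h3

theorem exists_AK : ∃ A : ℝ, 0 < A ∧ ∀ (s : ℝ) (y : InfinitePlace K → ℝ),
    Psi K s y ≠ 0 → ∀ w, |y w| < A := by
  obtain ⟨A, hA, h⟩ := exists_bound_of_cc_nu K
  refine ⟨A, hA, fun s y hy w => ?_⟩
  obtain ⟨h1, h2⟩ := Psi_ne_zero_imp K hy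
  have hl : Real.log 2 ≤ 1 := by
    have := Real.log_two_lt_d9
    linarith
  exact h y (fun i => (h1 i).le) (h2.le.trans hl) w

/-- A bound for the logarithms on the support of the weight. -/
noncomputable def AK : ℝ := (exists_AK K).choose

theorem AK_pos : 0 < AK K := (exists_AK K).choose_spec.1

theorem abs_lt_AK {s : ℝ} {y : InfinitePlace K → ℝ} (h : Psi K s y ≠ 0) (w : InfinitePlace K) :
    |y w| < AK K := (exists_AK K).choose_spec.2 s y h w

/-- The weight in logarithmic coordinates is Lipschitz, uniformly for `s ∈ [0, 2]`. -/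
theorem exists_Psi_lipschitz : ∃ Λ : ℝ, 0 ≤ Λ ∧ ∀ s : ℝ, 0 ≤ s → s ≤ 2 →
    ∀ y y' : InfinitePlace K → ℝ, |Psi K s y - Psi K s y'| ≤ Λ * ‖y - y'‖ := by
  obtain ⟨C1, hC1, hcc⟩ := exists_cc_bound K
  obtain ⟨C2, hC2, hnu⟩ := exists_nu_bound K
  have hl : 0 < Real.log 2 := Real.log_pos (by norm_num)
  have he : 0 < Real.exp 2 := Real.exp_pos _
  refine ⟨(2 * Real.exp 2 + Real.exp 2 / Real.log 2) * C2 + Real.exp 2 * (rank K * C1),
    by positivity, fun s hs0 hs2 y y' => ?_⟩
  have hD : 0 ≤ ‖y - y'‖ := norm_nonneg _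
  -- the unit coordinates
  have hP : |PsiP K y - PsiP K y'| ≤ rank K * C1 * ‖y - y'‖ := by
    refine (abs_prod_sub_prod_le Finset.univ _ _ (fun _ _ => abs_hat_le_one _)
      (fun _ _ => abs_hat_le_one _)).trans ?_
    calc ∑ i, |hat (cc K y i) - hat (cc K y' i)|
        ≤ ∑ _i : Fin (rank K), C1 * ‖y - y'‖ := by
          refine Finset.sum_le_sum fun i _ => (abs_hat_sub_hat_le _ _).trans ?_
          have := hcc (y - y') i
          rwa [map_sub, Pi.sub_apply] at this
      _ = rank K * C1 * ‖y - y'‖ := by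
          rw [Finset.sum_const, Finset.card_univ, Fintype.card_fin, nsmul_eq_mul]; ring
  -- the radial factor
  have hν : |nu K y - nu K y'| ≤ C2 * ‖y - y'‖ := by
    have := hnu (y - y')
    rwa [map_sub] at this
  have hQ : |PsiQ K s y - PsiQ K s y'| ≤
      (2 * Real.exp 2 + Real.exp 2 / Real.log 2) * (C2 * ‖y - y'‖) := by
    unfold PsiQ
    refine (abs_mul_sub_mul_le (Ma := 1) (Mb := Real.exp 2) (abs_hat_le_one _) ?_).trans ?_
    · rw [abs_of_pos (Real.exp_pos _)]
      exact Real.exp_le_exp.mpr (neg_mul_clamp1_le hs0 hs2 _)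
    · have h1 : |Real.exp (-s * clamp1 (nu K y)) - Real.exp (-s * clamp1 (nu K y'))|
          ≤ Real.exp 2 * (2 * |nu K y - nu K y'|) := by
        refine (abs_exp_sub_exp_le (neg_mul_clamp1_le hs0 hs2 _)
          (neg_mul_clamp1_le hs0 hs2 _)).trans (mul_le_mul_of_nonneg_left ?_ he.le)
        have h2 : -s * clamp1 (nu K y) - -s * clamp1 (nu K y')
            = -s * (clamp1 (nu K y) - clamp1 (nu K y')) := by ring
        rw [h2, abs_mul, abs_neg, abs_of_nonneg hs0]
        exact mul_le_mul hs2 (abs_clamp1_sub_le _ _) (abs_nonneg _) (by norm_num)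
      have h3 : |hat (nu K y / Real.log 2) - hat (nu K y' / Real.log 2)|
          ≤ |nu K y - nu K y'| / Real.log 2 := by
        refine (abs_hat_sub_hat_le _ _).trans (le_of_eq ?_)
        rw [← sub_div, abs_div, abs_of_pos hl]
      have h4 : 0 ≤ |nu K y - nu K y'| := abs_nonneg _
      calc 1 * |Real.exp (-s * clamp1 (nu K y)) - Real.exp (-s * clamp1 (nu K y'))| +
            Real.exp 2 * |hat (nu K y / Real.log 2) - hat (nu K y' / Real.log 2)|
          ≤ 1 * (Real.exp 2 * (2 * |nu K y - nu K y'|)) +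
            Real.exp 2 * (|nu K y - nu K y'| / Real.log 2) :=
            add_le_add (mul_le_mul_of_nonneg_left h1 zero_le_one)
              (mul_le_mul_of_nonneg_left h3 he.le)
        _ = (2 * Real.exp 2 + Real.exp 2 / Real.log 2) * |nu K y - nu K y'| := by ring
        _ ≤ (2 * Real.exp 2 + Real.exp 2 / Real.log 2) * (C2 * ‖y - y'‖) :=
            mul_le_mul_of_nonneg_left hν (by positivity)
  unfold Psi
  refine (abs_mul_sub_mul_le (Ma := 1) (Mb := Real.exp 2) (abs_PsiP_le_one K y)
    (abs_PsiQ_le K hs0 hs2 y')).trans ?_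
  calc 1 * |PsiQ K s y - PsiQ K s y'| + Real.exp 2 * |PsiP K y - PsiP K y'|
      ≤ 1 * ((2 * Real.exp 2 + Real.exp 2 / Real.log 2) * (C2 * ‖y - y'‖)) +
        Real.exp 2 * (rank K * C1 * ‖y - y'‖) :=
        add_le_add (mul_le_mul_of_nonneg_left hQ zero_le_one)
          (mul_le_mul_of_nonneg_left hP he.le)
    _ = ((2 * Real.exp 2 + Real.exp 2 / Real.log 2) * C2 + Real.exp 2 * (rank K * C1))
          * ‖y - y'‖ := by ring

/-! ### The weight on the mixed space -/

variable {K}

/-- The vector of logarithms of the absolute values of the coordinates. -/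
noncomputable def logv (x : mixedSpace K) : InfinitePlace K → ℝ :=
  fun w => Real.log (normAtPlace w x)

variable (K)

/-- The weight on the mixed space: the model weight evaluated at the clamped logarithms. -/
noncomputable def W (s : ℝ) (x : mixedSpace K) : ℝ :=
  Psi K s (fun w => clog (AK K) (normAtPlace w x))

theorem W_nonneg (s : ℝ) (x : mixedSpace K) : 0 ≤ W K s x := Psi_nonneg K s _

variable {K}

theorem abs_normAtPlace_sub_le (w : InfinitePlace K) (x x' : mixedSpace K) :
    |normAtPlace w x - normAtPlace w x'| ≤ ‖x - x'‖ := by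
  have h1 : normAtPlace w (x - x') ≤ ‖x - x'‖ := by
    rw [norm_eq_sup'_normAtPlace]
    exact Finset.le_sup' (fun w => normAtPlace w (x - x')) (Finset.mem_univ w)
  have h2 : normAtPlace w x ≤ normAtPlace w x' + normAtPlace w (x - x') := by
    have := normAtPlace_add_le w x' (x - x')
    rwa [add_sub_cancel] at this
  have h3 : normAtPlace w x' ≤ normAtPlace w x + normAtPlace w (x - x') := by
    have := normAtPlace_add_le w x (-(x - x'))
    rw [normAtPlace_neg] at this
    have e : x + -(x - x') = x' := by abel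
    rwa [e] at this
  rw [abs_le]
  constructor <;> linarith

variable (K)

/-- **Lipschitz property of the weight**, uniformly for `s ∈ [0, 2]`. -/
theorem exists_W_lipschitz : ∃ Λ : ℝ, 0 ≤ Λ ∧ ∀ s : ℝ, 0 ≤ s → s ≤ 2 →
    ∀ x x' : mixedSpace K, |W K s x - W K s x'| ≤ Λ * ‖x - x'‖ := by
  obtain ⟨Λ, hΛ, h⟩ := exists_Psi_lipschitz K
  refine ⟨Λ * Real.exp (AK K), by positivity, fun s hs0 hs2 x x' => ?_⟩
  refine (h s hs0 hs2 _ _).trans ?_
  rw [mul_assoc]
  refine mul_le_mul_of_nonneg_left ?_ hΛ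
  rw [pi_norm_le_iff_of_nonneg (by positivity)]
  intro w
  rw [Pi.sub_apply, Real.norm_eq_abs]
  exact (abs_clog_sub_clog_le _ _ _).trans
    (mul_le_mul_of_nonneg_left (abs_normAtPlace_sub_le w x x') (Real.exp_pos _).le)

variable {K}

/-- The weight vanishes outside the ball of radius `exp (AK K)`. -/
theorem W_eq_zero_of_lt_norm {s : ℝ} {x : mixedSpace K} (hx : Real.exp (AK K) < ‖x‖) :
    W K s x = 0 := by
  by_contra h
  have h1 : ∀ w, normAtPlace w x < Real.exp (AK K) := by
    intro w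
    by_contra hw
    have h2 := abs_lt_AK K h w
    rw [clog_of_ge (AK_pos K).le (not_lt.mp hw), abs_of_pos (AK_pos K)] at h2
    exact lt_irrefl _ h2
  have h3 : ‖x‖ ≤ Real.exp (AK K) := by
    rw [norm_eq_sup'_normAtPlace]
    exact Finset.sup'_le _ _ fun w _ => (h1 w).le
  exact not_lt.mpr h3 hx

/-- The weight vanishes as soon as one coordinate vanishes. -/
theorem W_eq_zero_of_normAtPlace_eq_zero {s : ℝ} {x : mixedSpace K} {w : InfinitePlace K}
    (hw : normAtPlace w x = 0) : W K s x = 0 := by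
  by_contra h
  have h2 := abs_lt_AK K h w
  rw [hw, clog_of_le (AK_pos K).le (Real.exp_pos _).le, abs_neg, abs_of_pos (AK_pos K)] at h2
  exact lt_irrefl _ h2

/-- On points with nonzero coordinates the clamping is invisible. -/
theorem W_eq_Psi_logv {s : ℝ} {x : mixedSpace K} (hx : ∀ w, normAtPlace w x ≠ 0) :
    W K s x = Psi K s (logv x) := by
  have hpos : ∀ w, 0 < normAtPlace w x := fun w =>
    lt_of_le_of_ne (normAtPlace_nonneg w x) (Ne.symm (hx w))
  by_cases hall : ∀ w, |Real.log (normAtPlace w x)| ≤ AK K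
  · have : (fun w => clog (AK K) (normAtPlace w x)) = logv x := by
      funext w
      have h := abs_le.mp (hall w)
      refine clog_eq_log ?_ ?_
      · rw [← Real.exp_log (hpos w)]
        exact Real.exp_le_exp.mpr h.1
      · rw [← Real.exp_log (hpos w)]
        exact Real.exp_le_exp.mpr h.2
    rw [W, this]
  · rw [not_forall] at hall
    obtain ⟨w, hw⟩ := hall
    rw [not_le] at hw
    have h1 : Psi K s (logv x) = 0 := by
      by_contra h
      exact lt_irrefl _ (hw.trans (abs_lt_AK K h w))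
    have h2 : W K s x = 0 := by
      by_contra h
      have h3 := abs_lt_AK K h w
      rcases lt_abs.mp hw with h4 | h4
      · have h5 : Real.exp (AK K) ≤ normAtPlace w x := by
          rw [← Real.exp_log (hpos w)]
          exact Real.exp_le_exp.mpr h4.le
        rw [clog_of_ge (AK_pos K).le h5, abs_of_pos (AK_pos K)] at h3
        exact lt_irrefl _ h3
      · have h5 : normAtPlace w x ≤ Real.exp (-AK K) := by
          rw [← Real.exp_log (hpos w)]
          exact Real.exp_le_exp.mpr (by linarith)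
        rw [clog_of_le (AK_pos K).le h5, abs_neg, abs_of_pos (AK_pos K)] at h3
        exact lt_irrefl _ h3
    rw [h1, h2]

/-- The unit part of the weight. -/
noncomputable def P (x : mixedSpace K) : ℝ := PsiP K (logv x)

/-- The radial part of the weight, as a function of the norm. -/
noncomputable def G (s t : ℝ) : ℝ :=
  hat (Real.log t / Real.log 2) * Real.exp (-s * clamp1 (Real.log t))

theorem P_nonneg (x : mixedSpace K) : 0 ≤ P x := PsiP_nonneg K _

theorem G_nonneg (s t : ℝ) : 0 ≤ G s t := mul_nonneg (hat_nonneg _) (Real.exp_pos _).le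

theorem nu_logv {x : mixedSpace K} (hx : ∀ w, normAtPlace w x ≠ 0) :
    nu K (logv x) = Real.log (mixedEmbedding.norm x) := by
  rw [nu_apply, mixedEmbedding.norm_apply, Real.log_prod (fun w _ => pow_ne_zero _ (hx w))]
  refine Finset.sum_congr rfl fun w _ => ?_
  rw [Real.log_pow, logv]

theorem W_eq_P_mul_G {s : ℝ} {x : mixedSpace K} (hx : ∀ w, normAtPlace w x ≠ 0) :
    W K s x = P x * G s (mixedEmbedding.norm x) := by
  rw [W_eq_Psi_logv hx, Psi, PsiQ, nu_logv hx, P, G]

/-- For `t > 0` the radial part is `hat (log₂ t) * t ^ (-s)`. -/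
theorem G_eq_rpow (s : ℝ) {t : ℝ} (ht : 0 < t) :
    G s t = hat (Real.log t / Real.log 2) * t ^ (-s) := by
  unfold G
  by_cases h : hat (Real.log t / Real.log 2) = 0
  · rw [h, zero_mul, zero_mul]
  · have h1 := abs_lt_one_of_hat_ne_zero h
    have hl : 0 < Real.log 2 := Real.log_pos (by norm_num)
    have hl1 : Real.log 2 ≤ 1 := by
      have := Real.log_two_lt_d9
      linarith
    rw [abs_div, abs_of_pos hl, div_lt_one hl] at h1
    rw [clamp1_eq_self (h1.le.trans hl1), Real.rpow_def_of_pos ht]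
    congr 2
    ring

theorem G_eq_zero_of_le {s t : ℝ} (ht0 : 0 < t) (ht : t ≤ 1 / 2) : G s t = 0 := by
  unfold G
  have hl : 0 < Real.log 2 := Real.log_pos (by norm_num)
  have h1 : Real.log t ≤ -Real.log 2 := by
    rw [← Real.log_inv]
    exact Real.log_le_log ht0 (by norm_num at ht ⊢; linarith)
  rw [hat_eq_zero, zero_mul]
  rw [abs_div, abs_of_pos hl, le_div_iff₀ hl, one_mul, abs_of_nonpos (by linarith)]
  linarith

theorem G_eq_zero_of_ge {s t : ℝ} (ht : 2 ≤ t) : G s t = 0 := by
  unfold G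
  have hl : 0 < Real.log 2 := Real.log_pos (by norm_num)
  have h1 : Real.log 2 ≤ Real.log t := Real.log_le_log (by norm_num) ht
  rw [hat_eq_zero, zero_mul]
  rw [abs_div, abs_of_pos hl, le_div_iff₀ hl, one_mul, abs_of_nonneg (by linarith)]
  exact h1

/-! ### The action of the units -/

omit [NumberField K] in
theorem normAtPlace_unit_smul (u : (𝓞 K)ˣ) (x : mixedSpace K) (w : InfinitePlace K) :
    normAtPlace w (u • x) = w (u : K) * normAtPlace w x := by
  rw [unitSMul_smul, map_mul, normAtPlace_apply]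

omit [NumberField K] in
theorem normAtPlace_unit_smul_ne_zero (u : (𝓞 K)ˣ) {x : mixedSpace K}
    (hx : ∀ w, normAtPlace w x ≠ 0) (w : InfinitePlace K) : normAtPlace w (u • x) ≠ 0 := by
  rw [normAtPlace_unit_smul]
  exact mul_ne_zero (Units.pos_at_place u w).ne' (hx w)

omit [NumberField K] in
theorem logv_unit_smul (u : (𝓞 K)ˣ) {x : mixedSpace K} (hx : ∀ w, normAtPlace w x ≠ 0) :
    logv (u • x) = (fun w : InfinitePlace K => Real.log (w (u : K))) + logv x := by
  funext w
  rw [Pi.add_apply, logv, logv, normAtPlace_unit_smul,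
    Real.log_mul (Units.pos_at_place u w).ne' (hx w)]

theorem multRestrict_log_unit (u : (𝓞 K)ˣ) :
    multRestrict K (fun w : InfinitePlace K => Real.log (w (u : K))) =
      logEmbedding K (Additive.ofMul u) := by
  funext w
  rw [multRestrict_apply, logEmbedding_component]

theorem cc_log_unit {ζ : (𝓞 K)ˣ} (hζ : ζ ∈ torsion K) (m : Fin (rank K) → ℤ) :
    cc K (fun w : InfinitePlace K =>
      Real.log (w ((ζ * ∏ i, fundSystem K i ^ m i : (𝓞 K)ˣ) : K))) = fun j => (m j : ℝ) := by
  rw [cc_apply, multRestrict_log_unit]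
  have h1 : logEmbedding K (Additive.ofMul (ζ * ∏ i, fundSystem K i ^ m i)) =
      ∑ i, (m i : ℝ) • unitBasis K i := by
    rw [ofMul_mul, map_add, logEmbedding_eq_zero_iff.mpr hζ, zero_add, ofMul_prod, map_sum]
    refine Finset.sum_congr rfl fun i _ => ?_
    rw [ofMul_zpow, map_zsmul, unitBasis_apply, Int.cast_smul_eq_zsmul]
  rw [h1]
  funext j
  rw [Basis.equivFun_apply, Basis.repr_sum_self]

theorem P_unit_smul {ζ : (𝓞 K)ˣ} (hζ : ζ ∈ torsion K) (m : Fin (rank K) → ℤ)
    {x : mixedSpace K} (hx : ∀ w, normAtPlace w x ≠ 0) :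
    P ((ζ * ∏ i, fundSystem K i ^ m i) • x) = ∏ j, hat (cc K (logv x) j + (m j : ℝ)) := by
  rw [P, PsiP, logv_unit_smul _ hx, map_add, cc_log_unit hζ]
  refine Finset.prod_congr rfl fun j _ => ?_
  rw [Pi.add_apply, add_comm]

/-- **Partition of unity**: the translates of `P` by the units `ζ * ∏ εᵢ ^ mᵢ`
(`ζ` a fixed root of unity) add up to `1`. -/
theorem tsum_P_unit_smul {ζ : (𝓞 K)ˣ} (hζ : ζ ∈ torsion K) {x : mixedSpace K}
    (hx : ∀ w, normAtPlace w x ≠ 0) :
    ∑' m : Fin (rank K) → ℤ, ENNReal.ofReal (P ((ζ * ∏ i, fundSystem K i ^ m i) • x)) = 1 := by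
  simp_rw [P_unit_smul hζ _ hx]
  exact tsum_prod_hat_eq_one _

end Fermat.Agent.Lib.SmoothZeta
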